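import Fermat.Agent.HeckeBS.Growth

/-!
# A difference form of the formula of Poisson and Jensen

If `g` is entire without zeros in `re s > c.re - t`, then moving from `c` to `c - t` raises
`log |g|` by at most `4 t / R` times a bound for the mean of `|log |g||` on the circle of radius `R`:
the terms of the zeros all decrease.
-/

set_option autoImplicit false
set_option linter.style.haveILetI false

noncomputable section

open Complex Metric Real Set Filter Topology MeromorphicOn InnerProductSpace
open scoped Real Classical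

namespace FA.StarkZero

/-- A point to the right of the zero gives the smaller factor. -/
theorem log_canonicalFactor_le {R t : ℝ} (hR : 0 < R) (ht : 0 ≤ t) (_htR : t < R) {i : ℂ}
    (hi : ‖i‖ < R) (hre : i.re ≤ -t) (hne : (-(t : ℂ)) ≠ i) (hi0 : i ≠ 0) :
    Real.log ‖canonicalFactor R i 0‖ ≤ Real.log ‖canonicalFactor R i (-(t : ℂ))‖ := by
  have h1 : 1 ≤ ‖canonicalFactor R i 0‖ :=
    FA.HeckeBS.one_le_norm_canonicalFactor hR hi (by simpa using hR.le) (Ne.symm hi0)
  refine Real.log_le_log (zero_lt_one.trans_le h1) ?_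
  have hd1 : (R : ℂ) * ((0 : ℂ) - i) ≠ 0 :=
    mul_ne_zero (ofReal_ne_zero.2 hR.ne') (sub_ne_zero.2 (Ne.symm hi0))
  have hd2 : (R : ℂ) * (-(t : ℂ) - i) ≠ 0 :=
    mul_ne_zero (ofReal_ne_zero.2 hR.ne') (sub_ne_zero.2 hne)
  rw [canonicalFactor_apply, canonicalFactor_apply, norm_div, norm_div,
    div_le_div_iff₀ (norm_pos_iff.2 hd1) (norm_pos_iff.2 hd2), ← sq_le_sq₀ (by positivity) (by positivity)]
  simp only [mul_pow, ← normSq_eq_norm_sq, normSq_apply, sub_re, sub_im, mul_re, mul_im, neg_re,
    neg_im, ← ofReal_pow, ofReal_re, ofReal_im, conj_re, conj_im, zero_re, zero_im]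
  have hρ : i.re * i.re + i.im * i.im < R * R := by
    have h := mul_self_lt_mul_self (norm_nonneg i) hi
    rwa [← sq, ← normSq_eq_norm_sq, normSq_apply] at h
  set q := i.re * i.re + i.im * i.im
  have hq : 0 ≤ q := add_nonneg (mul_self_nonneg _) (mul_self_nonneg _)
  have h2 : 2 * t * i.re * R ^ 2 + t ^ 2 * (q + R ^ 2) ≤ 0 := by
    have hA := mul_le_mul_of_nonneg_left hre (show 0 ≤ 2 * t * R ^ 2 by positivity)
    have hB := mul_le_mul_of_nonneg_left hρ.le (sq_nonneg t)
    nlinarith
  have hkey : 0 ≤ (q - R ^ 2) * (2 * t * i.re * R ^ 2 + t ^ 2 * (q + R ^ 2)) :=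
    mul_nonneg_of_nonpos_of_nonpos (by nlinarith) h2
  nlinarith [mul_nonneg (sq_nonneg R) hkey]

/-- The difference, against the mean of the absolute value. -/
theorem log_norm_sub_le_abs {g : ℂ → ℂ} (hg : Differentiable ℂ g) {c : ℂ} {R t : ℝ} (hR : 0 < R)
    (ht : 0 < t) (ht2 : t ≤ R / 2) (hzero : ∀ z, g z = 0 → z.re ≤ c.re - t) (hc : g c ≠ 0)
    (hct : g (c - t) ≠ 0) :
    Real.log ‖g (c - t)‖ - Real.log ‖g c‖ ≤
      4 * t / R * circleAverage (fun z => |Real.log ‖g (z + c)‖|) 0 R := by
  set f : ℂ → ℂ := fun z => g (z + c)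
  have hf : Differentiable ℂ f := hg.comp (differentiable_id.add_const c)
  set w : ℂ := -(t : ℂ)
  have hw : w ∈ ball (0 : ℂ) R := mem_ball_zero_iff.2 (by
    rw [norm_neg, norm_real, Real.norm_of_nonneg ht.le]; linarith)
  have hf0 : f 0 = g c := by simp [f]
  have hfw : f w = g (c - t) := by simp [f, w, neg_add_eq_sub]
  have e0 := FA.HeckeBS.log_norm_eq_circleAverage hf hR (mem_ball_self hR) (hf0 ▸ hc)
  have ew := FA.HeckeBS.log_norm_eq_circleAverage hf hR hw (hfw ▸ hct)
  rw [hf0] at e0
  rw [hfw] at ew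
  set P := Complex.re ∘ herglotzRieszKernel 0 w
  set P0 := Complex.re ∘ herglotzRieszKernel 0 (0 : ℂ)
  have hfa : AnalyticOnNhd ℂ f (ball (0 : ℂ) R) := fun z _ => hf.analyticAt z
  have hsupp : ∀ u : ℂ, (Function.support fun i => (divisor f (ball (0 : ℂ) R) i : ℝ) *
      Real.log ‖canonicalFactor R i u‖).Finite := fun u => by
    have hfin : (divisor f (closedBall (0 : ℂ) R)).support.Finite :=
      (divisor f (closedBall (0 : ℂ) R)).finiteSupport (isCompact_closedBall _ _)
    refine hfin.subset fun i hi => ?_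
    simp only [Function.mem_support] at hi ⊢
    intro h
    apply hi
    by_cases hib : i ∈ ball (0 : ℂ) R
    · have hmer : ∀ U : Set ℂ, MeromorphicOn f U := fun U z _ => (hf.analyticAt z).meromorphicAt
      rw [divisor_apply (hmer _) hib]
      rw [divisor_apply (hmer _) (ball_subset_closedBall hib)] at h
      rw [h, Int.cast_zero, zero_mul]
    · simp [Function.locallyFinsuppWithin.apply_eq_zero_of_notMem _ hib]
  -- the zeros
  have hsum : ∑ᶠ i, (divisor f (ball (0 : ℂ) R) i : ℝ) * Real.log ‖canonicalFactor R i 0‖ ≤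
      ∑ᶠ i, (divisor f (ball (0 : ℂ) R) i : ℝ) * Real.log ‖canonicalFactor R i w‖ := by
    rw [finsum_eq_sum_of_support_subset _ (s := (hsupp 0).toFinset ∪ (hsupp w).toFinset) (by simp),
      finsum_eq_sum_of_support_subset _ (s := (hsupp 0).toFinset ∪ (hsupp w).toFinset) (by simp)]
    refine Finset.sum_le_sum fun i _ => ?_
    by_cases hi : i ∈ ball (0 : ℂ) R
    · rcases eq_or_ne (f i) 0 with h0 | h0
      · refine mul_le_mul_of_nonneg_left ?_ (Int.cast_nonneg (hfa.divisor_nonneg i))
        refine log_canonicalFactor_le hR ht.le (by linarith) (mem_ball_zero_iff.1 hi) ?_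
          (fun e => hct ?_) (fun e => hc ?_)
        · have := hzero _ h0
          rw [add_re] at this
          linarith
        · rw [← hfw, show w = i from e]; exact h0
        · rw [← hf0]; rwa [e] at h0
      · have hd : divisor f (ball (0 : ℂ) R) i = 0 := by
          rw [divisor_apply (fun z _ => (hf.analyticAt z).meromorphicAt) hi,
            (hf.analyticAt i).meromorphicOrderAt_eq, (hf.analyticAt i).analyticOrderAt_eq_zero.2 h0]
          rfl
        simp [hd]
    · simp [Function.locallyFinsuppWithin.apply_eq_zero_of_notMem _ hi]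
  -- the two averages
  have hmer : MeromorphicOn f (sphere (0 : ℂ) |R|) := fun z _ => (hf.analyticAt z).meromorphicAt
  have hl := hmer.circleIntegrable_log_norm (c := (0 : ℂ)) (R := R)
  have hp := hmer.circleIntegrable_posLog_norm (c := (0 : ℂ)) (R := R)
  have hPw : ContinuousOn P (sphere (0 : ℂ) |R|) :=
    continuous_re.comp_continuousOn (continuousOn_herglotzRieszKernel_sphere hw)
  have hP0 : ContinuousOn P0 (sphere (0 : ℂ) |R|) :=
    continuous_re.comp_continuousOn (continuousOn_herglotzRieszKernel_sphere (mem_ball_self hR))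
  have hbound : ∀ z ∈ sphere (0 : ℂ) |R|, P0 z = 1 ∧ |P z - 1| ≤ 4 * t / R := fun z hz => by
    rw [abs_of_pos hR] at hz
    have h1 := re_herglotzRieszKernel_le hz hw
    have h2 := le_re_herglotzRieszKernel hz hw
    have h3 := re_herglotzRieszKernel_le hz (mem_ball_self hR)
    have h4 := le_re_herglotzRieszKernel hz (mem_ball_self hR)
    simp only [sub_zero, w, norm_neg, norm_real, Real.norm_of_nonneg ht.le, norm_zero, sub_zero,
      add_zero, div_self hR.ne'] at h1 h2 h3 h4
    refine ⟨?_, ?_⟩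
    · simp only [P0, Function.comp_apply, herglotzRieszKernel_def, sub_zero, add_zero] at h3 h4 ⊢
      exact le_antisymm h3 h4
    · simp only [P, w, Function.comp_apply, herglotzRieszKernel_def, sub_zero] at h1 h2 ⊢
      rw [abs_le]
      constructor
      · refine le_trans ?_ (sub_le_sub_right h2 1)
        rw [div_sub_one (by linarith), neg_le_iff_add_nonneg', div_add_div _ _ hR.ne' (by linarith)]
        exact div_nonneg (by nlinarith) (by positivity)
      · refine (sub_le_sub_right h1 1).trans ?_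
        rw [div_sub_one (by linarith), div_le_div_iff₀ (by linarith) hR]
        nlinarith
  have hmid : circleAverage (P • fun z => Real.log ‖f z‖) 0 R -
      circleAverage (P0 • fun z => Real.log ‖f z‖) 0 R ≤
      4 * t / R * circleAverage (fun z => |Real.log ‖f z‖|) 0 R := by
    rw [← circleAverage_fun_sub (hl.continuousOn_smul hPw) (hl.continuousOn_smul hP0),
      ← smul_eq_mul (4 * t / R), ← circleAverage_fun_smul]
    refine circleAverage_mono ((hl.continuousOn_smul hPw).sub (hl.continuousOn_smul hP0))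
      ((hl.abs).const_fun_smul) fun z hz => ?_
    obtain ⟨hz0, hz1⟩ := hbound z hz
    simp only [Pi.smul_apply', smul_eq_mul, hz0, one_mul]
    rw [← sub_one_mul]
    refine le_trans (le_abs_self _) ?_
    rw [abs_mul]
    exact mul_le_mul_of_nonneg_right hz1 (abs_nonneg _)
  linarith

/-- **The difference.** -/
theorem log_norm_sub_le {g : ℂ → ℂ} (hg : Differentiable ℂ g) {c : ℂ} {R t M : ℝ} (hR : 0 < R)
    (ht : 0 < t) (ht2 : t ≤ R / 2) (hzero : ∀ z, g z = 0 → z.re ≤ c.re - t) (hc : g c ≠ 0)
    (hct : g (c - t) ≠ 0) (hM : ∀ z ∈ sphere c R, log⁺ ‖g z‖ ≤ M) :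
    Real.log ‖g (c - t)‖ - Real.log ‖g c‖ ≤ 4 * t / R * (2 * M - Real.log ‖g c‖) := by
  refine (log_norm_sub_le_abs hg hR ht ht2 hzero hc hct).trans
    (mul_le_mul_of_nonneg_left ?_ (by positivity))
  set f : ℂ → ℂ := fun z => g (z + c)
  have hf : Differentiable ℂ f := hg.comp (differentiable_id.add_const c)
  have hf0 : f 0 = g c := by simp [f]
  have hmer : MeromorphicOn f (sphere (0 : ℂ) |R|) := fun z _ => (hf.analyticAt z).meromorphicAt
  have hl := hmer.circleIntegrable_log_norm (c := (0 : ℂ)) (R := R)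
  have hp := hmer.circleIntegrable_posLog_norm (c := (0 : ℂ)) (R := R)
  have h2i : CircleIntegrable (fun z => 2 * log⁺ ‖f z‖) 0 R := hp.const_mul 2
  have hlow : Real.log ‖g c‖ ≤ circleAverage (fun z => Real.log ‖f z‖) 0 R := by
    have h := FA.HeckeBS.log_norm_le_circleAverage hf hR (mem_ball_self hR) (hf0 ▸ hc)
    rw [hf0] at h
    refine h.trans (le_of_eq (circleAverage_congr_sphere fun z hz => ?_))
    rw [abs_of_pos hR] at hz
    have h3 := re_herglotzRieszKernel_le hz (mem_ball_self hR)
    have h4 := le_re_herglotzRieszKernel hz (mem_ball_self hR)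
    simp only [sub_zero, norm_zero, add_zero, div_self hR.ne'] at h3 h4
    simp only [Pi.smul_apply', smul_eq_mul, Function.comp_apply, herglotzRieszKernel_def, sub_zero, add_zero]
    rw [le_antisymm h3 h4, one_mul]
  calc circleAverage (fun z => |Real.log ‖f z‖|) 0 R
      ≤ circleAverage (fun z => 2 * log⁺ ‖f z‖ - Real.log ‖f z‖) 0 R := by
        refine circleAverage_mono hl.abs (h2i.sub hl) fun z _ => ?_
        have hl1 : Real.log ‖f z‖ ≤ log⁺ ‖f z‖ := le_max_right _ _
        have hl0 : 0 ≤ log⁺ ‖f z‖ := posLog_nonneg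
        rw [abs_le]
        constructor <;> linarith
    _ ≤ _ := by
        rw [circleAverage_fun_sub h2i hl]
        refine sub_le_sub ?_ hlow
        refine circleAverage_mono_on_of_le_circle h2i fun z hz => ?_
        rw [abs_of_pos hR] at hz
        have := hM (z + c) (by simpa [dist_eq_norm] using hz)
        linarith

/-- The same with the value at `c + 1` on the right, for `R = 3`. -/
theorem log_norm_sub_le_shift {g : ℂ → ℂ} (hg : Differentiable ℂ g) {c : ℂ} {t M : ℝ}
    (ht : 0 < t) (ht2 : t ≤ 3 / 2) (hzero : ∀ z, g z = 0 → z.re ≤ c.re - t) (hc : g c ≠ 0)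
    (hct : g (c - t) ≠ 0) (hc1 : g (c + 1) ≠ 0) (hM : ∀ z ∈ sphere c 3, log⁺ ‖g z‖ ≤ M) :
    Real.log ‖g (c - t)‖ - Real.log ‖g c‖ ≤ 4 * t / 3 * (5 * M - 2 * Real.log ‖g (c + 1)‖) := by
  refine (log_norm_sub_le_abs hg (by norm_num) ht ht2 hzero hc hct).trans
    (mul_le_mul_of_nonneg_left ?_ (by positivity))
  set f : ℂ → ℂ := fun z => g (z + c)
  have hf : Differentiable ℂ f := hg.comp (differentiable_id.add_const c)
  have hf1 : f 1 = g (c + 1) := by simp [f, add_comm]
  have hw : (1 : ℂ) ∈ ball (0 : ℂ) 3 := mem_ball_zero_iff.2 (by norm_num)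
  have hmer : MeromorphicOn f (sphere (0 : ℂ) |(3 : ℝ)|) := fun z _ => (hf.analyticAt z).meromorphicAt
  have hl := hmer.circleIntegrable_log_norm (c := (0 : ℂ)) (R := 3)
  have hp := hmer.circleIntegrable_posLog_norm (c := (0 : ℂ)) (R := 3)
  have h5i : CircleIntegrable (fun z => 5 * log⁺ ‖f z‖) 0 3 := hp.const_mul 5
  have h := FA.HeckeBS.log_norm_le_circleAverage hf (by norm_num) hw (hf1 ▸ hc1)
  rw [hf1] at h
  set P := Complex.re ∘ herglotzRieszKernel 0 (1 : ℂ)
  have hPc : ContinuousOn P (sphere (0 : ℂ) |(3 : ℝ)|) :=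
    continuous_re.comp_continuousOn (continuousOn_herglotzRieszKernel_sphere (by simpa using hw))
  have h2i : CircleIntegrable (fun z => 2 * (P • fun z => Real.log ‖f z‖) z) 0 3 :=
    (hl.continuousOn_smul hPc).const_mul 2
  calc circleAverage (fun z => |Real.log ‖f z‖|) 0 3
      ≤ circleAverage (fun z => 5 * log⁺ ‖f z‖ - 2 * (P • fun z => Real.log ‖f z‖) z) 0 3 := by
        refine circleAverage_mono hl.abs (h5i.sub h2i) fun z hz => ?_
        rw [abs_of_pos (by norm_num : (0 : ℝ) < 3)] at hz
        have h1 := re_herglotzRieszKernel_le hz hw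
        have h2 := le_re_herglotzRieszKernel hz hw
        simp only [sub_zero, norm_one] at h1 h2
        simp only [Pi.smul_apply', smul_eq_mul]
        change |Real.log ‖f z‖| ≤ 5 * log⁺ ‖f z‖ - 2 * (P z * Real.log ‖f z‖)
        have hPz : P z = ((z + 1) / (z - 1)).re := by simp [P, herglotzRieszKernel_def]
        have hP2 : P z ≤ 2 := by rw [hPz]; norm_num at h1 ⊢; exact h1
        have hP1 : 1 / 2 ≤ P z := by rw [hPz]; norm_num at h2 ⊢; exact h2
        rcases le_total 0 (Real.log ‖f z‖) with hs | hs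
        · rw [abs_of_nonneg hs]
          have hl1 : Real.log ‖f z‖ ≤ log⁺ ‖f z‖ := le_max_right _ _
          nlinarith [mul_le_mul_of_nonneg_right hP2 hs]
        · rw [abs_of_nonpos hs]
          have hl0 : 0 ≤ log⁺ ‖f z‖ := posLog_nonneg
          nlinarith [mul_le_mul_of_nonpos_right hP1 hs]
    _ ≤ _ := by
        rw [circleAverage_fun_sub h5i h2i]
        refine sub_le_sub ?_ ?_
        · refine circleAverage_mono_on_of_le_circle h5i fun z hz => ?_
          rw [abs_of_pos (by norm_num : (0 : ℝ) < 3)] at hz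
          have := hM (z + c) (by simpa [dist_eq_norm] using hz)
          linarith
        · rw [← smul_eq_mul (2 : ℝ)]
          simp only [← smul_eq_mul (2 : ℝ)]
          rw [circleAverage_fun_smul, smul_eq_mul, smul_eq_mul]
          exact mul_le_mul_of_nonneg_left h zero_le_two

end FA.StarkZero
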