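import Fermat.Agent.ArtinL.Defs
import Mathlib.Analysis.Meromorphic.Order
import Mathlib.Analysis.Calculus.DSlope
import Mathlib.Analysis.Calculus.Deriv.Star
import Mathlib.Analysis.Complex.CauchyIntegral

/-!
# Orders of functions given on a half-plane

Meromorphic functions that agree on `1 < re s` have equal orders everywhere; and the L-series of
the conjugate function at the conjugate point is the conjugate value.
-/

set_option autoImplicit false
set_option linter.unusedSectionVars false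
set_option linter.style.haveILetI false

noncomputable section

open Complex Filter Topology Set
open scoped Classical ComplexConjugate

namespace FA.StarkZero

/-- The order, `0` for a function vanishing identically. -/
def ordInt (f : ℂ → ℂ) (x : ℂ) : ℤ := (meromorphicOrderAt f x).untop₀

theorem eventually_halfPlane : ∀ᶠ z : ℂ in 𝓝[≠] (2 : ℂ), 1 < z.re :=
  ((isOpen_lt continuous_const continuous_re).mem_nhds
    (show (1 : ℝ) < (2 : ℂ).re by norm_num)) |> nhdsWithin_le_nhds

theorem eventuallyEq_of_halfPlane {f g : ℂ → ℂ} (hf : Meromorphic f) (hg : Meromorphic g)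
    (h : ∀ s : ℂ, 1 < s.re → f s = g s) (x : ℂ) : f =ᶠ[𝓝[≠] x] g := by
  have hd : MeromorphicOn (f - g) univ := fun z _ => (hf z).sub (hg z)
  have h2 : meromorphicOrderAt (f - g) 2 = ⊤ :=
    meromorphicOrderAt_eq_top_iff.2 (eventually_halfPlane.mono fun z hz => sub_eq_zero.2 (h z hz))
  have hx : meromorphicOrderAt (f - g) x = ⊤ := by
    by_contra hne
    exact hd.meromorphicOrderAt_ne_top_of_isPreconnected isPreconnected_univ (mem_univ x)
      (mem_univ 2) hne h2
  exact (meromorphicOrderAt_eq_top_iff.1 hx).mono fun z hz => sub_eq_zero.1 hz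

theorem ordInt_congr {f g : ℂ → ℂ} {x : ℂ} (h : f =ᶠ[𝓝[≠] x] g) : ordInt f x = ordInt g x := by
  rw [ordInt, ordInt, meromorphicOrderAt_congr h]

theorem order_ne_top {f : ℂ → ℂ} (hf : Meromorphic f) (h : ∀ s : ℂ, 1 < s.re → f s ≠ 0) (x : ℂ) :
    meromorphicOrderAt f x ≠ ⊤ := by
  refine MeromorphicOn.meromorphicOrderAt_ne_top_of_isPreconnected (fun z _ => hf z)
    isPreconnected_univ (mem_univ 2) (mem_univ x) fun ht => ?_
  obtain ⟨z, hz, hz'⟩ := ((meromorphicOrderAt_eq_top_iff.1 ht).and eventually_halfPlane).exists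
  exact h z hz' hz

theorem ordInt_mul {f g : ℂ → ℂ} (hf : Meromorphic f) (hg : Meromorphic g)
    (hf0 : ∀ s : ℂ, 1 < s.re → f s ≠ 0) (hg0 : ∀ s : ℂ, 1 < s.re → g s ≠ 0) (x : ℂ) :
    ordInt (fun z => f z * g z) x = ordInt f x + ordInt g x := by
  rw [ordInt, fun_meromorphicOrderAt_mul (hf x) (hg x),
    WithTop.untop₀_add (order_ne_top hf hf0 x) (order_ne_top hg hg0 x)]
  rfl

theorem ordInt_zpow {f : ℂ → ℂ} (hf : Meromorphic f) (h : ∀ s : ℂ, 1 < s.re → f s ≠ 0) (m : ℤ)
    (x : ℂ) : ordInt (fun z => f z ^ m) x = m * ordInt f x := by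
  rw [ordInt, fun_meromorphicOrderAt_zpow (hf x), ordInt]
  obtain ⟨k, hk⟩ := WithTop.ne_top_iff_exists.1 (order_ne_top hf h x)
  rw [← hk, ← WithTop.coe_mul, WithTop.untop₀_coe, WithTop.untop₀_coe]

theorem ordInt_prod_zpow {ι : Type*} (t : Finset ι) (F : ι → ℂ → ℂ) (m : ι → ℤ)
    (hF : ∀ i ∈ t, Meromorphic (F i)) (h0 : ∀ i ∈ t, ∀ s : ℂ, 1 < s.re → F i s ≠ 0) (x : ℂ) :
    ordInt (fun z => ∏ i ∈ t, F i z ^ m i) x = ∑ i ∈ t, m i * ordInt (F i) x := by
  induction t using Finset.induction_on with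
  | empty => simp [ordInt, meromorphicOrderAt_const]
  | insert a t ha ih =>
    have hF' : ∀ i ∈ t, Meromorphic (F i) := fun i hi => hF i (Finset.mem_insert_of_mem hi)
    have h0' := fun i hi => h0 i (Finset.mem_insert_of_mem hi : i ∈ insert a t)
    rw [Finset.sum_insert ha, ← ih hF' h0', ← ordInt_zpow (hF a (Finset.mem_insert_self a t))
      (h0 a (Finset.mem_insert_self a t))]
    simp only [Finset.prod_insert ha]
    exact ordInt_mul (fun z => (hF a (Finset.mem_insert_self a t) z).fun_zpow _)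
      (fun z => MeromorphicAt.fun_prod fun i hi => (hF' i hi z).fun_zpow (m i))
      (fun s hs => zpow_ne_zero _ (h0 a (Finset.mem_insert_self a t) s hs))
      (fun s hs => Finset.prod_ne_zero_iff.2 fun i hi => zpow_ne_zero _ (h0' i hi s hs)) x

theorem ordInt_nonneg {f : ℂ → ℂ} {x : ℂ} (hf : AnalyticAt ℂ f x) : 0 ≤ ordInt f x := by
  have h := hf.meromorphicOrderAt_nonneg
  unfold ordInt
  cases hv : meromorphicOrderAt f x with
  | top => simp
  | coe k => rw [hv] at h; simpa using h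

theorem ordInt_eq_zero {f : ℂ → ℂ} {x : ℂ} (hf : AnalyticAt ℂ f x) (h : f x ≠ 0) :
    ordInt f x = 0 := by
  rw [ordInt, show meromorphicOrderAt f x = ((0 : ℤ) : WithTop ℤ) from
    (meromorphicOrderAt_eq_int_iff hf.meromorphicAt).2 ⟨f, hf, h, Eventually.of_forall fun z => by
      simp⟩, WithTop.untop₀_coe]

theorem eq_zero_of_ordInt_pos {f : ℂ → ℂ} {x : ℂ} (hf : AnalyticAt ℂ f x) (h : 0 < ordInt f x) :
    f x = 0 := by
  by_contra h0
  exact h.ne' (ordInt_eq_zero hf h0)

theorem ordInt_ne_zero {f : ℂ → ℂ} {x : ℂ} (hf : AnalyticAt ℂ f x) (h : f x = 0)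
    (hne : meromorphicOrderAt f x ≠ ⊤) : ordInt f x ≠ 0 := by
  intro h0
  obtain ⟨k, hk⟩ := WithTop.ne_top_iff_exists.1 hne
  rw [ordInt, ← hk, WithTop.untop₀_coe] at h0
  subst h0
  obtain ⟨g, hg, hg0, hev⟩ := (meromorphicOrderAt_eq_int_iff hf.meromorphicAt).1 hk.symm
  refine hg0 ?_
  rw [← h]
  refine tendsto_nhds_unique ((hg.continuousAt.tendsto.mono_left nhdsWithin_le_nhds).congr'
    (hev.mono fun z hz => ?_)) (hf.continuousAt.tendsto.mono_left nhdsWithin_le_nhds)
  rw [hz]; simp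

theorem ordInt_eq_one {f : ℂ → ℂ} {x : ℂ} (hf : Differentiable ℂ f) (h : f x = 0)
    (hd : deriv f x ≠ 0) : ordInt f x = 1 := by
  have hg : Differentiable ℂ (dslope f x) := differentiableOn_univ.1
    ((differentiableOn_dslope univ_mem).2 hf.differentiableOn)
  rw [ordInt, show meromorphicOrderAt f x = ((1 : ℤ) : WithTop ℤ) from
    (meromorphicOrderAt_eq_int_iff (hf.analyticAt x).meromorphicAt).2
      ⟨dslope f x, hg.analyticAt x, by rwa [dslope_same], Eventually.of_forall fun z => by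
        rw [zpow_one, sub_smul_dslope, h, sub_zero]⟩, WithTop.untop₀_coe]

open FA.ArtinL in
/-- **Conjugation.** -/
theorem artinL_conj {K L : Type*} [Field K] [NumberField K] [Field L] [NumberField L] [Algebra K L]
    [IsGalois K L] (χ : (L ≃ₐ[K] L) → ℂ) (s : ℂ) :
    artinL (fun σ => conj (χ σ)) (conj s) = conj (artinL χ s) := by
  rw [artinL, artinL, ← Complex.exp_conj]
  congr 1
  rw [artinLog, artinLog, Complex.conj_tsum]
  refine tsum_congr fun p => ?_
  have hcpow : ∀ N : ℕ, ((N : ℂ) ^ (-conj s)) = conj ((N : ℂ) ^ (-s)) := fun N => by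
    rw [← map_neg, cpow_conj _ _ (by rw [Complex.natCast_arg]; exact Real.pi_pos.ne), conj_natCast]
  simp only [term, coef, localMean, map_div₀, map_mul, map_inv₀, map_pow, map_add, map_one,
    map_sum, conj_natCast, hcpow]

end FA.StarkZero
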