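import Fermat.Agent.StarkZero.Jensen
import Fermat.Agent.StarkOdlyzko.Bound
import Fermat.Agent.HeckeBS.Residue

/-!
# Stark's lemma: at most one zero near `1`

Let `L = 1 + log |d|`. If `xi` had two zeros in `[1 - η, 1]`, `η` a small multiple of `1 / L`, then
between `σ - t` and `σ = 1 + 2 η` they would contribute `2 t / (3 η)` to the increase of `log xi`,
the pole at most `t / (1.9 η)`, and everything else `O(t L)`.
-/

set_option autoImplicit false
set_option linter.style.haveILetI false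

noncomputable section

universe u

open NumberField InfinitePlace Module Complex Filter Topology Set Metric
open FA.HeckeBS FA.StarkOdlyzko
open scoped Real Classical

namespace FA.StarkZero

/-- `1 + log |d|`. -/
def size (K : Type u) [Field K] [NumberField K] : ℝ :=
  1 + Real.log (((discr K).natAbs : ℕ) : ℝ)

variable {K : Type u} [Field K] [NumberField K]

theorem log_natAbs_nonneg : 0 ≤ Real.log (((discr K).natAbs : ℕ) : ℝ) :=
  Real.log_nonneg (Nat.one_le_cast.2 (Int.natAbs_pos.2 (discr_ne_zero K)))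

theorem one_le_size : 1 ≤ size K := le_add_of_nonneg_right log_natAbs_nonneg

/-- Slopes of `log Γ` up to `2` are at most `log 2`. -/
theorem logGamma_sub_le {x y : ℝ} (hx : 0 < x) (hxy : x ≤ y) (hy : y ≤ 2) :
    Real.log (Real.Gamma y) - Real.log (Real.Gamma x) ≤ (y - x) * Real.log 2 := by
  rcases eq_or_lt_of_le hxy with rfl | hlt
  · simp
  have hconv := Real.convexOn_log_Gamma
  have h23 : Real.log (Real.Gamma 3) - Real.log (Real.Gamma 2) = Real.log 2 := by
    rw [show (3 : ℝ) = 2 + 1 by norm_num, Real.Gamma_add_one (by norm_num),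
      Real.Gamma_two, mul_one, Real.log_one, sub_zero]
  have key : (Real.log (Real.Gamma y) - Real.log (Real.Gamma x)) / (y - x) ≤ Real.log 2 := by
    rcases eq_or_lt_of_le hy with rfl | hy2
    · have h := hconv.slope_mono_adjacent (show x ∈ Ioi (0 : ℝ) from hx)
        (show (3 : ℝ) ∈ Ioi (0 : ℝ) by norm_num) hlt (show (2 : ℝ) < 3 by norm_num)
      simp only [Function.comp_apply] at h
      rw [show (3 : ℝ) - 2 = 1 by norm_num, div_one, h23] at h
      exact h
    · have h := hconv.slope_mono_adjacent (show x ∈ Ioi (0 : ℝ) from hx)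
        (show (2 : ℝ) ∈ Ioi (0 : ℝ) by norm_num) hlt hy2
      have h' := hconv.slope_mono_adjacent (show y ∈ Ioi (0 : ℝ) from hx.trans hlt)
        (show (3 : ℝ) ∈ Ioi (0 : ℝ) by norm_num) hy2 (show (2 : ℝ) < 3 by norm_num)
      simp only [Function.comp_apply] at h h'
      rw [show (3 : ℝ) - 2 = 1 by norm_num, div_one, h23] at h'
      exact h.trans h'
  rw [div_le_iff₀ (sub_pos.2 hlt)] at key
  linarith

theorem logR_sub_le {x y : ℝ} (hx : 1 ≤ x) (hxy : x ≤ y) (hy : y ≤ 2) :
    logR y - logR x ≤ y - x := by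
  have h := logGamma_sub_le (x := x / 2) (y := y / 2) (by linarith) (by linarith) (by linarith)
  have hπ : 0 ≤ Real.log π := Real.log_nonneg (by linarith [Real.pi_gt_three])
  have h2 := Real.log_two_lt_d9
  simp only [logR]
  nlinarith

theorem logC_sub_le {x y : ℝ} (hx : 1 ≤ x) (hxy : x ≤ y) (hy : y ≤ 2) :
    logC y - logC x ≤ y - x := by
  have h := logGamma_sub_le (x := x) (y := y) (by linarith) hxy hy
  have hπ : 0 ≤ Real.log (2 * π) := Real.log_nonneg (by linarith [Real.pi_gt_three])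
  have h2 := Real.log_two_lt_d9
  simp only [logC]
  nlinarith

theorem log_pi_le : Real.log π ≤ 2 ∧ Real.log (2 * π) ≤ 2 := by
  have h : (7 : ℝ) ≤ Real.exp 2 := by
    have he := Real.exp_one_gt_d9
    rw [show (2 : ℝ) = 1 + 1 by norm_num, Real.exp_add]
    nlinarith
  constructor <;> rw [Real.log_le_iff_le_exp (by positivity)] <;> linarith [Real.pi_lt_four,
    Real.pi_lt_d2]

theorem logR_ge {x : ℝ} (hx : 1 ≤ x) (hx2 : x ≤ 2) : -6 ≤ logR x := by
  have h := logGamma_sub_le (x := x / 2) (y := 2) (by linarith) (by linarith) le_rfl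
  rw [Real.Gamma_two, Real.log_one] at h
  have h1 := log_pi_le.1
  have hπ : 0 ≤ Real.log π := Real.log_nonneg (by linarith [Real.pi_gt_three])
  have h2 := Real.log_two_lt_d9
  have h3 : 0 ≤ Real.log 2 := Real.log_nonneg (by norm_num)
  simp only [logR]
  nlinarith

theorem logC_ge {x : ℝ} (hx : 1 ≤ x) (hx2 : x ≤ 2) : -6 ≤ logC x := by
  have h := logGamma_sub_le (x := x) (y := 2) (by linarith) hx2 le_rfl
  rw [Real.Gamma_two, Real.log_one] at h
  have h1 := log_pi_le.2
  have hπ : 0 ≤ Real.log (2 * π) := Real.log_nonneg (by linarith [Real.pi_gt_three])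
  have h2 := Real.log_two_lt_d9
  have h3 : 0 ≤ Real.log 2 := Real.log_nonneg (by norm_num)
  simp only [logC]
  nlinarith

/-- The bound for `log⁺ |xi|` near `[1, 2]`, per unit of `size`. -/
def growth (n : ℕ) : ℝ := 4 + n * (|logR 5| + |logC 5| + 2 * eulerConst 5)

theorem growth_nonneg (n : ℕ) : 0 ≤ growth n := by
  have : 0 ≤ eulerConst 5 :=
    mul_nonneg zero_le_two (tsum_nonneg fun m => Real.rpow_nonneg (Nat.cast_nonneg _) _)
  unfold growth; positivity

theorem log_xiR_five_le : Real.log (xiR K 5) ≤ growth (finrank ℚ K) * size K := by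
  have h5 : (1 : ℝ) < 5 := by norm_num
  have hz : zetaR K 5 ≤ Real.exp (finrank ℚ K * eulerConst 5) := by
    have h := (norm_dedekindZeta_bounds (K := K) (s := ((5 : ℝ) : ℂ)) (by simp)).2
    rw [dedekindZeta_ofReal K h5, norm_real, Real.norm_of_nonneg (zetaR_pos K h5).le] at h
    simpa using h
  have hzl : Real.log (zetaR K 5) ≤ finrank ℚ K * eulerConst 5 :=
    (Real.log_le_iff_le_exp (zetaR_pos K h5)).2 hz
  rw [xiR_eq K h5, Real.log_mul (polyGam_pos K h5).ne' (zetaR_pos K h5).ne', log_polyGam K h5, size]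
  set D := Real.log (((discr K).natAbs : ℕ) : ℝ)
  have hD : 0 ≤ D := log_natAbs_nonneg
  have hn := FA.HeckeBS.places_le_finrank K
  have hr : (nrRealPlaces K : ℝ) * logR 5 ≤ finrank ℚ K * |logR 5| :=
    (mul_le_mul_of_nonneg_left (le_abs_self _) (Nat.cast_nonneg _)).trans
      (mul_le_mul_of_nonneg_right (Nat.cast_le.2 (by omega)) (abs_nonneg _))
  have hc : (nrComplexPlaces K : ℝ) * logC 5 ≤ finrank ℚ K * |logC 5| :=
    (mul_le_mul_of_nonneg_left (le_abs_self _) (Nat.cast_nonneg _)).trans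
      (mul_le_mul_of_nonneg_right (Nat.cast_le.2 (by omega)) (abs_nonneg _))
  have hE : 0 ≤ (finrank ℚ K : ℝ) * eulerConst 5 := mul_nonneg (Nat.cast_nonneg _)
    (mul_nonneg zero_le_two (tsum_nonneg fun m => Real.rpow_nonneg (Nat.cast_nonneg _) _))
  have hX : 0 ≤ (finrank ℚ K : ℝ) * (|logR 5| + |logC 5| + 2 * eulerConst 5) := by
    nlinarith [mul_nonneg (Nat.cast_nonneg (finrank ℚ K) : (0 : ℝ) ≤ _)
      (add_nonneg (abs_nonneg (logR 5)) (abs_nonneg (logC 5)))]
  have hl : Real.log 5 + Real.log (5 - 1) ≤ 4 := by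
    rw [← Real.log_mul (by norm_num) (by norm_num), Real.log_le_iff_le_exp (by norm_num)]
    have he := Real.exp_one_gt_d9
    rw [show (4 : ℝ) = 1 + 1 + 1 + 1 by norm_num, Real.exp_add, Real.exp_add, Real.exp_add]
    nlinarith [mul_le_mul he.le he.le (by norm_num) (Real.exp_pos 1).le]
  have hX' := mul_nonneg hX hD
  have hX'' : Real.log 5 + Real.log (5 - 1) + (5 / 2 * D +
      ((nrRealPlaces K : ℝ) * logR 5 + (nrComplexPlaces K : ℝ) * logC 5)) + Real.log (zetaR K 5) ≤
      4 + 4 * D + (finrank ℚ K : ℝ) * (|logR 5| + |logC 5| + 2 * eulerConst 5) := by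
    rw [mul_add, mul_add, mul_left_comm _ (2 : ℝ)]
    exact le_trans (add_le_add (add_le_add hl (add_le_add
      (mul_le_mul_of_nonneg_right (by norm_num : (5 / 2 : ℝ) ≤ 4) hD) (add_le_add hr hc)))
      (hzl.trans (le_mul_of_one_le_left hE one_le_two))) (le_of_eq (by ring))
  simp only [growth]
  rw [add_mul, mul_add, mul_add]
  linarith

theorem norm_xiFun_le {z : ℂ} {σ : ℝ} (hσ : 1 ≤ σ) (hσ2 : σ ≤ 3 / 2) (hz : ‖z - σ‖ = 3) :
    ‖xiFun K z‖ ≤ xiR K 5 := by
  have hre := abs_le.1 ((Complex.abs_re_le_norm (z - σ)).trans hz.le)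
  rw [sub_re, ofReal_re] at hre
  have h1 : ‖z‖ ≤ 9 / 2 := by
    calc ‖z‖ = ‖(z - σ) + σ‖ := by rw [sub_add_cancel]
      _ ≤ ‖z - σ‖ + ‖(σ : ℂ)‖ := norm_add_le _ _
      _ ≤ _ := by rw [hz, norm_real, Real.norm_of_nonneg (by linarith)]; linarith
  have h2 : ‖z - 1‖ ≤ 7 / 2 := by
    calc ‖z - 1‖ = ‖(z - σ) + ((σ - 1 : ℝ) : ℂ)‖ := by push_cast; ring_nf
      _ ≤ ‖z - σ‖ + ‖((σ - 1 : ℝ) : ℂ)‖ := norm_add_le _ _
      _ ≤ _ := by rw [hz, norm_real, Real.norm_of_nonneg (by linarith)]; linarith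
  have hX : ‖FA.HeckeFE.zetaXi K z‖ ≤ zetaXiR K 5 := by
    refine (norm_zetaXi_le z).trans ?_
    rcases le_total (1 / 2) z.re with h | h
    · exact zetaXiR_mono h (by linarith)
    · rw [← zetaXiR_one_sub]; exact zetaXiR_mono (by linarith) (by linarith)
  rw [xiFun, polarConst_ofReal, xiR]
  refine (norm_add_le _ _).trans ?_
  rw [norm_mul, norm_mul, norm_real, Real.norm_of_nonneg (polarR_pos K).le]
  refine add_le_add ?_ le_rfl
  calc ‖z‖ * ‖z - 1‖ * ‖FA.HeckeFE.zetaXi K z‖ ≤ 9 / 2 * (7 / 2) * zetaXiR K 5 :=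
        mul_le_mul (mul_le_mul h1 h2 (norm_nonneg _) (by norm_num)) hX (norm_nonneg _) (by norm_num)
    _ ≤ _ := mul_le_mul_of_nonneg_right (by norm_num) (zetaXiR_nonneg 5)

theorem xiFun_ne_zero_of_one_lt {s : ℂ} (hs : 1 < s.re) : xiFun K s ≠ 0 := by
  have h0 : 0 < s.re := by linarith
  have hs0 : s ≠ 0 := fun h => by simp [h] at h0
  have hs1 : s - 1 ≠ 0 := sub_ne_zero.2 fun h => by simp [h] at hs
  have hR : Gammaℝ s ≠ 0 := Gammaℝ_ne_zero_of_re_pos h0
  rw [xiFun_half K hs, FA.HeckeFE.gamFac, ← Gammaℝ_mul_Gammaℝ_add_one]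
  refine mul_ne_zero (mul_ne_zero hs0 hs1) (mul_ne_zero (mul_ne_zero ?_ (mul_ne_zero ?_ ?_)) ?_)
  · exact cpow_ne_zero_iff.2 (Or.inl (FA.HeckeFE.discr_natAbs_ne_zero K))
  · exact pow_ne_zero _ hR
  · exact pow_ne_zero _ (mul_ne_zero hR (Gammaℝ_ne_zero_of_re_pos (by simp; linarith)))
  · exact norm_pos_iff.1 ((Real.exp_pos _).trans_le (norm_dedekindZeta_bounds (K := K) hs).1)

/-- The constant of Stark's lemma. -/
def starkA (n : ℕ) : ℝ := 2 + n + 4 / 3 * (2 * growth n + 6 * n)

/-- The width of the zone, times `1 + log |d|`. -/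
def starkC (n : ℕ) : ℝ := 7 / (100 * (starkA n + 27))

theorem starkA_nonneg (n : ℕ) : 0 ≤ starkA n := by
  have := growth_nonneg n
  unfold starkA; positivity

theorem starkC_pos (n : ℕ) : 0 < starkC n := by
  have := starkA_nonneg n
  unfold starkC; positivity

theorem starkC_div_le {L : ℝ} (hL : 1 ≤ L) (n : ℕ) : starkC n / L ≤ 1 / 300 := by
  have hA := starkA_nonneg n
  refine (div_le_self (starkC_pos n).le hL).trans ?_
  rw [starkC, div_le_iff₀ (by positivity)]
  linarith

variable (K) in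
/-- **No two zeros near `1`.** -/
theorem two_factor_false {g : ℂ → ℂ} (hg : Differentiable ℂ g) {β₁ β₂ : ℝ}
    (hβ₁ : β₁ ∈ Icc (1 - starkC (finrank ℚ K) / size K) 1)
    (hβ₂ : β₂ ∈ Icc (1 - starkC (finrank ℚ K) / size K) 1)
    (h : ∀ s : ℂ, xiFun K s = (s - β₁) * (s - β₂) * g s) : False := by
  set n := finrank ℚ K
  set L := size K with hLdef
  set η := starkC n / L with hη
  have hL : 1 ≤ L := one_le_size
  have hη0 : 0 < η := div_pos (starkC_pos n) (zero_lt_one.trans_le hL)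
  have hη3 : η ≤ 1 / 300 := starkC_div_le hL n
  set σ := 1 + 2 * η with hσdef
  set t := η / 10 with htdef
  have ht0 : 0 < t := by positivity
  have hσt : 1 < σ - t := by linarith
  have hσ1 : 1 < σ := by linarith
  have hval : ∀ x : ℝ, 1 < x → ‖g x‖ = xiR K x / ((x - β₁) * (x - β₂)) ∧ 0 < xiR K x := fun x hx => by
    have hpos : 0 < xiR K x := by rw [xiR_eq K hx]; exact mul_pos (polyGam_pos K hx) (zetaR_pos K hx)
    have h1 := congrArg norm (h x)
    rw [xiFun_ofReal, norm_mul, norm_mul, norm_real, ← ofReal_sub, ← ofReal_sub, norm_real, norm_real,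
      Real.norm_of_nonneg hpos.le, Real.norm_of_nonneg (show 0 ≤ x - β₁ by linarith [hβ₁.2]),
      Real.norm_of_nonneg (show 0 ≤ x - β₂ by linarith [hβ₂.2])] at h1
    refine ⟨?_, hpos⟩
    rw [eq_div_iff (mul_pos (show 0 < x - β₁ by linarith [hβ₁.2]) (show 0 < x - β₂ by linarith [hβ₂.2])).ne',
      h1]
    ring
  have hlog : ∀ x : ℝ, 1 < x → Real.log ‖g x‖ = Real.log (polyGam K x) + Real.log (zetaR K x) -
      (Real.log (x - β₁) + Real.log (x - β₂)) := fun x hx => by
    obtain ⟨e, hpos⟩ := hval x hx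
    have e1 : x - β₁ ≠ 0 := by linarith [hβ₁.2]
    have e2 : x - β₂ ≠ 0 := by linarith [hβ₂.2]
    rw [e, Real.log_div hpos.ne' (mul_ne_zero e1 e2), Real.log_mul e1 e2, xiR_eq K hx,
      Real.log_mul (polyGam_pos K hx).ne' (zetaR_pos K hx).ne']
  have hne : ∀ x : ℝ, 1 < x → g x ≠ 0 := fun x hx e => by
    have h1 := h x
    rw [e, mul_zero] at h1
    exact xiFun_ne_zero_of_one_lt (K := K) (s := (x : ℂ)) (by simpa using hx) h1
  have hzero : ∀ z : ℂ, g z = 0 → z.re ≤ (σ : ℂ).re - t := fun z hz => by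
    rw [ofReal_re]
    refine le_trans (le_of_not_gt fun hgt => xiFun_ne_zero_of_one_lt (K := K) hgt ?_) hσt.le
    rw [h, hz, mul_zero]
  have hM : ∀ z ∈ sphere (σ : ℂ) 3, Real.posLog ‖g z‖ ≤ growth n * L := fun z hz => by
    rw [mem_sphere, dist_eq_norm] at hz
    have hβ : ∀ β : ℝ, β ∈ Icc (1 - η) 1 → 1 ≤ ‖z - β‖ := fun β hb => by
      have h1 : ‖z - σ‖ ≤ ‖z - β‖ + ‖((β - σ : ℝ) : ℂ)‖ := by
        rw [ofReal_sub, show z - (σ : ℂ) = (z - β) + ((β : ℂ) - σ) by ring]
        exact norm_add_le _ _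
      rw [hz, norm_real, Real.norm_eq_abs, abs_sub_comm,
        abs_of_nonneg (show 0 ≤ σ - β by linarith [hb.2])] at h1
      linarith [hb.1]
    rcases le_or_gt ‖g z‖ 1 with h1 | h1
    · rw [(Real.posLog_eq_zero_iff _).2 (by rwa [abs_norm])]
      exact mul_nonneg (growth_nonneg n) (zero_le_one.trans hL)
    · rw [Real.posLog_eq_log (by rw [abs_norm]; exact h1.le)]
      refine (Real.log_le_log (zero_lt_one.trans h1) ?_).trans log_xiR_five_le
      refine le_trans ?_ (norm_xiFun_le (K := K) hσ1.le (by linarith) hz)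
      rw [h, norm_mul, norm_mul]
      exact le_mul_of_one_le_left (norm_nonneg _) (one_le_mul_of_one_le_of_one_le (hβ _ hβ₁) (hβ _ hβ₂))
  have hJ := log_norm_sub_le hg (c := (σ : ℂ)) (R := 3) (t := t) (M := growth n * L) (by norm_num) ht0
    (by linarith) hzero (hne σ hσ1) (by rw [← ofReal_sub]; exact hne _ hσt) hM
  rw [← ofReal_sub, hlog σ hσ1, hlog (σ - t) hσt] at hJ
  set D := Real.log (((discr K).natAbs : ℕ) : ℝ) with hD
  have hD0 : 0 ≤ D := log_natAbs_nonneg
  have hLD : L = 1 + D := rfl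
  have hn := FA.HeckeBS.places_le_finrank K
  have hnR : (nrRealPlaces K : ℝ) + nrComplexPlaces K ≤ n := by exact_mod_cast hn
  -- the increase of the factor at infinity
  have hpg : Real.log (polyGam K σ) - Real.log (polyGam K (σ - t)) ≤
      t * (10 / (19 * η) + 1 + D / 2 + n) := by
    rw [log_polyGam K hσ1, log_polyGam K hσt]
    have e1 : Real.log σ - Real.log (σ - t) ≤ t := by
      rw [← Real.log_div (by linarith) (by linarith)]
      refine (Real.log_le_sub_one_of_pos (div_pos (by linarith) (by linarith))).trans ?_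
      rw [div_sub_one (by linarith), div_le_iff₀ (by linarith)]
      nlinarith
    have e2 : Real.log (σ - 1) - Real.log (σ - t - 1) ≤ t * (10 / (19 * η)) := by
      rw [← Real.log_div (by linarith) (by linarith)]
      refine (Real.log_le_sub_one_of_pos (div_pos (by linarith) (by linarith))).trans (le_of_eq ?_)
      rw [div_sub_one (by linarith), show σ - t - 1 = 19 * η / 10 by simp only [σ, t]; ring,
        div_div_eq_mul_div]
      simp only [σ, t]
      ring
    have e3 := mul_le_mul_of_nonneg_left (logR_sub_le hσt.le (by linarith) (by linarith : σ ≤ 2))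
      (Nat.cast_nonneg (nrRealPlaces K) : (0 : ℝ) ≤ _)
    have e4 := mul_le_mul_of_nonneg_left (logC_sub_le hσt.le (by linarith) (by linarith : σ ≤ 2))
      (Nat.cast_nonneg (nrComplexPlaces K) : (0 : ℝ) ≤ _)
    have e5 := mul_le_mul_of_nonneg_right hnR ht0.le
    nlinarith
  have hz := Real.log_le_log (zetaR_pos K hσ1) (zetaR_anti K hσt (by linarith : σ - t ≤ σ))
  -- the zeros
  have hb : ∀ β : ℝ, β ∈ Icc (1 - η) 1 →
      t * (1 / (3 * η)) ≤ Real.log (σ - β) - Real.log (σ - t - β) := fun β hb => by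
    have p1 : 0 < σ - t - β := by linarith [hb.2]
    have h1 := Real.log_le_sub_one_of_pos (div_pos p1 (show 0 < σ - β by linarith))
    rw [Real.log_div p1.ne' (by linarith), div_sub_one (by linarith),
      show σ - t - β - (σ - β) = -t by ring, neg_div] at h1
    refine le_trans ?_ (by linarith : t / (σ - β) ≤ Real.log (σ - β) - Real.log (σ - t - β))
    rw [mul_one_div]
    exact div_le_div_of_nonneg_left ht0.le (by linarith) (by linarith [hb.1])
  have hb1 := hb β₁ hβ₁
  have hb2 := hb β₂ hβ₂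
  -- the value at the centre
  have hc : Real.log (2 * η) - 6 * n ≤ Real.log (polyGam K σ) + Real.log (zetaR K σ) -
      (Real.log (σ - β₁) + Real.log (σ - β₂)) := by
    have f1 : 0 ≤ Real.log (zetaR K σ) := Real.log_nonneg (by
      have := (summable_zN K hσ1).le_tsum 1 fun I _ => FA.Ext.zN_nonneg σ I
      simpa [FA.Ext.zN, Ideal.one_eq_top, zetaR] using this)
    have f2 : ∀ β : ℝ, β ∈ Icc (1 - η) 1 → Real.log (σ - β) ≤ 0 := fun β hb =>
      Real.log_nonpos (by linarith [hb.2]) (by linarith [hb.1])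
    have f3 := f2 β₁ hβ₁
    have f4 := f2 β₂ hβ₂
    rw [log_polyGam K hσ1]
    have f5 : 0 ≤ Real.log σ := Real.log_nonneg hσ1.le
    have f6 := mul_le_mul_of_nonneg_left (logR_ge hσ1.le (by linarith : σ ≤ 2))
      (Nat.cast_nonneg (nrRealPlaces K) : (0 : ℝ) ≤ _)
    have f7 := mul_le_mul_of_nonneg_left (logC_ge hσ1.le (by linarith : σ ≤ 2))
      (Nat.cast_nonneg (nrComplexPlaces K) : (0 : ℝ) ≤ _)
    have f8 : 0 ≤ σ / 2 * D := mul_nonneg (by linarith) hD0
    rw [show σ - 1 = 2 * η by simp only [σ]; ring]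
    linarith
  -- compare
  set u := 1 / η with hu
  have hu0 : 0 < u := by positivity
  have hlogη : -Real.log (2 * η) ≤ 2 * Real.sqrt u := by
    have h1 : Real.log η ≤ Real.log (2 * η) := Real.log_le_log hη0 (by linarith)
    have h2 : Real.log u = -Real.log η := by rw [hu, one_div, Real.log_inv]
    have h3 := Real.log_le_sub_one_of_pos (Real.sqrt_pos.2 hu0)
    rw [Real.log_sqrt hu0.le] at h3
    linarith
  have hu3 : 10 / (19 * η) = 10 / 19 * u ∧ 1 / (3 * η) = 1 / 3 * u := by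
    constructor <;> rw [hu] <;> field_simp
  rw [hu3.2] at hb1 hb2
  rw [hu3.1] at hpg
  have h43 : 4 * t / 3 = t * (4 / 3) := by ring
  rw [h43] at hJ
  have hmid : 2 * (growth n * L) - (Real.log (polyGam K σ) + Real.log (zetaR K σ) -
      (Real.log (σ - β₁) + Real.log (σ - β₂))) ≤ 2 * (growth n * L) + 2 * Real.sqrt u + 6 * n := by
    linarith
  have hmid' := mul_le_mul_of_nonneg_left hmid (show 0 ≤ t * (4 / 3) by positivity)
  have hmain : t * (2 / 3 * u - 10 / 19 * u) ≤
      t * (1 + D / 2 + n + 4 / 3 * (2 * (growth n * L) + 2 * Real.sqrt u + 6 * n)) := by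
    linarith
  have hmain' := le_of_mul_le_mul_left hmain ht0
  have hAL : 1 + D / 2 + n + 4 / 3 * (2 * (growth n * L) + 6 * n) ≤ starkA n * L := by
    simp only [starkA, hLD]
    nlinarith [growth_nonneg n, (Nat.cast_nonneg n : (0 : ℝ) ≤ n)]
  have hsq : 8 / 3 * Real.sqrt u ≤ 7 / 100 * u + 26 := by
    have := sq_nonneg (Real.sqrt u - 400 / 21)
    rw [sub_sq, Real.sq_sqrt hu0.le] at this
    nlinarith
  have hueq : 7 / 100 * u = (starkA n + 27) * L := by
    have hA := starkA_nonneg n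
    rw [hu, hη, starkC]
    field_simp
  nlinarith

end FA.StarkZero
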