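import Fermat.Agent.MonomialArtin.Span
import Fermat.Agent.BrauerInduction.Main

/-!
# Virtual characters of degree `1`

If the combination `∑ n(χ) χ` has value `1` at `1` and pairs naturally with every character induced
from a linear character of an abelian subgroup, it is a single linear character.
-/

set_option autoImplicit false
set_option linter.style.haveILetI false

noncomputable section

open Finset FA.FrobeniusGroups FA.CharacterTheory FA.BrauerInduction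
open scoped Classical

namespace FA.StarkZero

universe u

variable {G : Type u} [Group G] [Fintype G]

theorem exists_single (n : (G → ℂ) → ℤ) (h1 : ∑ χ ∈ irr G, (n χ : ℂ) * χ 1 = 1)
    (h2 : ∀ (C : Subgroup G) (ψ : C →* ℂˣ), (∀ a b : C, a * b = b * a) →
      ∃ a : ℕ, ∑ χ ∈ irr G, (n χ : ℂ) * pairing (induced C fun y => (ψ y : ℂ)) χ = a) :
    ∃ χ₀ ∈ irr G, n χ₀ = 1 ∧ χ₀ 1 = 1 ∧ ∀ χ ∈ irr G, χ ≠ χ₀ → n χ = 0 := by
  set θ : G → ℂ := fun x => ∑ χ ∈ irr G, (n χ : ℂ) * χ x with hθdef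
  have hθ : ∀ g x, θ (g * x * g⁻¹) = θ x := fun g x => sum_congr rfl fun χ hχ => by rw [irr_conj hχ]
  -- on a cyclic subgroup `θ` is a linear character
  have hinv : ∀ g : G, θ g * θ g⁻¹ = 1 := fun g => by
    set C := Subgroup.zpowers g
    have hC : ∀ a b : C, a * b = b * a := fun a b => by
      obtain ⟨i, hi⟩ := Subgroup.mem_zpowers_iff.1 a.2
      obtain ⟨j, hj⟩ := Subgroup.mem_zpowers_iff.1 b.2
      exact Subtype.ext (by rw [Subgroup.coe_mul, Subgroup.coe_mul, ← hi, ← hj, ← zpow_add, ← zpow_add, add_comm])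
    have hone : ∀ φ ∈ irr C, φ 1 = 1 := fun φ hφ => irr_one_of_comm hC hφ
    choose! ψ hψ using fun φ (hφ : φ ∈ irr C) => exists_hom_of_one hφ (hone φ hφ)
    have hnat : ∀ φ ∈ irr C, ∃ a : ℕ, pairing (fun y : C => θ y) φ = a := fun φ hφ => by
      obtain ⟨a, ha⟩ := h2 C (ψ φ) hC
      refine ⟨a, ?_⟩
      rw [pairing_comm, ← pairing_induced C φ hθ, pairing_comm, hθdef, pairing_sum_left, ← ha]
      refine sum_congr rfl fun χ _ => ?_
      rw [pairing_comm, hψ φ hφ]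
    choose! a ha using hnat
    have hexp : ∀ y : C, θ y = ∑ φ ∈ irr C, (a φ : ℂ) * φ y := fun y => by
      rw [expansion (f := fun y : C => θ y) (fun b c => by simp [hθ]) y]
      exact sum_congr rfl fun φ hφ => by rw [ha φ hφ]
    have hsum : ∑ φ ∈ irr C, a φ = 1 := by
      have h := hexp 1
      rw [Subgroup.coe_one, show θ 1 = 1 from h1] at h
      rw [sum_congr rfl fun φ hφ => by rw [hone φ hφ, mul_one]] at h
      exact_mod_cast h.symm
    obtain ⟨φ₀, hφ₀, hne⟩ := exists_ne_zero_of_sum_ne_zero (hsum.trans_ne one_ne_zero)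
    have hsplit := add_sum_erase (irr C) a hφ₀
    have h0 : ∀ φ ∈ (irr C).erase φ₀, a φ = 0 := sum_eq_zero_iff.1 (by omega)
    have ha0 : a φ₀ = 1 := by rw [sum_eq_zero h0] at hsplit; omega
    have heq : ∀ y : C, θ y = (ψ φ₀ y : ℂ) := fun y => by
      rw [hexp y, ← add_sum_erase _ _ hφ₀, ha0, sum_eq_zero fun φ hφ => by rw [h0 φ hφ]; simp]
      rw [Nat.cast_one, one_mul, add_zero]
      exact (congrFun (hψ φ₀ hφ₀) y).symm
    have e1 := heq ⟨g, Subgroup.mem_zpowers g⟩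
    have e2 := heq ⟨g, Subgroup.mem_zpowers g⟩⁻¹
    rw [Subgroup.coe_inv, map_inv, Units.val_inv_eq_inv_val] at e2
    rw [e1, e2, mul_inv_cancel₀ (Units.ne_zero _)]
  have hnorm : pairing θ θ = 1 := by
    rw [pairing, sum_congr rfl fun g _ => hinv g, sum_const, card_univ, nsmul_one,
      ← Nat.card_eq_fintype_card, inv_mul_cancel₀ (Nat.cast_ne_zero.2 Nat.card_pos.ne')]
  have hθχ : ∀ χ ∈ irr G, pairing θ χ = (n χ : ℂ) := fun χ hχ => by
    rw [hθdef, pairing_sum_left, sum_congr rfl fun φ hφ => by rw [pairing_irr hφ hχ]]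
    simp [hχ]
  have hsq : ∑ χ ∈ irr G, n χ * n χ = 1 := by
    have h : pairing θ θ = ∑ χ ∈ irr G, (n χ : ℂ) * n χ := by
      conv_lhs => arg 1; rw [hθdef]
      rw [pairing_sum_left]
      exact sum_congr rfl fun χ hχ => by rw [pairing_comm, hθχ χ hχ]
    rw [hnorm] at h
    exact_mod_cast h.symm
  obtain ⟨χ₀, hχ₀, hne⟩ := exists_ne_zero_of_sum_ne_zero (hsq.trans_ne one_ne_zero)
  have hsplit := add_sum_erase (irr G) (fun χ => n χ * n χ) hχ₀
  have hpos : 0 ≤ ∑ χ ∈ (irr G).erase χ₀, n χ * n χ := sum_nonneg fun χ _ => mul_self_nonneg _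
  have hge : 1 ≤ n χ₀ * n χ₀ := lt_of_le_of_ne (mul_self_nonneg _) hne.symm
  simp only [hsq] at hsplit
  have h0 : ∀ χ ∈ irr G, χ ≠ χ₀ → n χ = 0 := fun χ hχ hc => mul_self_eq_zero.1
    ((sum_eq_zero_iff_of_nonneg fun χ _ => mul_self_nonneg _).1 (by linarith) χ (mem_erase.2 ⟨hc, hχ⟩))
  obtain ⟨d, hd0, hd⟩ := irr_one hχ₀
  rw [sum_eq_single χ₀ (fun χ hχ hc => by rw [h0 χ hχ hc, Int.cast_zero, zero_mul])
    (fun h => absurd hχ₀ h), hd] at h1
  have h1' : n χ₀ * (d : ℤ) = 1 := by exact_mod_cast h1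
  have hn1 : n χ₀ = 1 := Int.eq_one_of_mul_eq_one_right (by
    nlinarith [(Nat.cast_nonneg d : (0 : ℤ) ≤ d)]) h1'
  refine ⟨χ₀, hχ₀, hn1, ?_, h0⟩
  rw [hn1, one_mul, Nat.cast_eq_one] at h1'
  rw [hd, h1', Nat.cast_one]

end FA.StarkZero
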