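import Fermat.Agent.StarkZero.Order
import Fermat.Agent.StarkZero.Virtual
import Fermat.Agent.HeckeBS.Strip
import Fermat.Agent.ZetaDivisibility.Quotient
import Fermat.Agent.PsiOscillation.Landau
import Fermat.Agent.ArtinL.DegreeOne

/-!
# Heilbronn's theorem on simple real zeros

If the zeta function of a Galois number field has a simple zero at a real `ρ ∈ (0, 1)`, the orders
at `ρ` of the Artin L-series form a virtual character of degree `1` pairing naturally with every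
induced linear character, so a single linear character, which is real: the zero comes from a
quadratic subfield.
-/

set_option autoImplicit false
set_option linter.unusedSectionVars false
set_option linter.style.haveILetI false

noncomputable section

open NumberField InfinitePlace Module Complex Filter Topology Set Finset
open FA.ArtinL (artinL artinL_one artinL_add artinL_sum artinL_zsmul artinL_induced artinL_ne_zero
  fixedEquiv inducedFn_fixedField dedekindZeta_eq_prod dedekindZeta_rat)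
open FA.CharacterTheory FA.BrauerInduction FA.FrobeniusGroups FA.HeckeBS
open FA.MonomialArtin (exists_linear_cleared exists_nat_pairing_induced)
open FA.ZetaDivisibility (exists_zeta_cleared eq_of_eqOn_halfPlane)
open scoped Classical ComplexConjugate

namespace FA.StarkZero

universe u

theorem differentiableAt_gamFac (K : Type u) [Field K] [NumberField K] {s : ℂ} (hs : 0 < s.re) :
    DifferentiableAt ℂ (FA.HeckeFE.gamFac K) s ∧ FA.HeckeFE.gamFac K s ≠ 0 := by
  have hG : ∀ a : ℂ, 0 < a.re → DifferentiableAt ℂ Gammaℝ a := fun a ha =>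
    ((differentiable_Gammaℝ_inv a).inv (inv_ne_zero (Gammaℝ_ne_zero_of_re_pos ha))).congr_of_eventuallyEq
      (Eventually.of_forall fun x => (inv_inv (Gammaℝ x)).symm)
  have hs' : 0 < (s + 1).re := by simp only [add_re, one_re]; linarith
  have e : FA.HeckeFE.gamFac K = fun z => (((discr K).natAbs : ℕ) : ℂ) ^ (z / 2) *
      (Gammaℝ z ^ nrRealPlaces K * (Gammaℝ z * Gammaℝ (z + 1)) ^ nrComplexPlaces K) := funext fun z => by
    rw [FA.HeckeFE.gamFac, Gammaℝ_mul_Gammaℝ_add_one]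
  have hd : (((discr K).natAbs : ℕ) : ℂ) ≠ 0 := FA.HeckeFE.discr_natAbs_ne_zero K
  rw [e]
  refine ⟨?_, ?_⟩
  · exact (DifferentiableAt.const_cpow (differentiableAt_id.div_const 2) (Or.inl hd)).mul
      (((hG s hs).pow _).mul (((hG s hs).mul ((hG (s + 1) hs').comp s
        (differentiableAt_id.add_const 1))).pow _))
  · exact mul_ne_zero (cpow_ne_zero_iff.2 (Or.inl hd))
      (mul_ne_zero (pow_ne_zero _ (Gammaℝ_ne_zero_of_re_pos hs)) (pow_ne_zero _
        (mul_ne_zero (Gammaℝ_ne_zero_of_re_pos hs) (Gammaℝ_ne_zero_of_re_pos hs'))))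

/-- `xi` and the zeta function with its pole removed. -/
theorem xiFun_eq_mul (K : Type u) [Field K] [NumberField K] {E : ℂ → ℂ} (hE : Differentiable ℂ E)
    (hEL : ∀ s : ℂ, 1 < s.re → E s = (s - 1) * dedekindZeta K s) :
    Set.EqOn (xiFun K) (fun s => s * FA.HeckeFE.gamFac K s * E s) {s : ℂ | 0 < s.re} := by
  have hHo : IsOpen {s : ℂ | 0 < s.re} := isOpen_lt continuous_const continuous_re
  refine AnalyticOnNhd.eqOn_of_preconnected_of_eventuallyEq
    ((differentiable_xiFun K).differentiableOn.analyticOnNhd hHo)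
    (DifferentiableOn.analyticOnNhd (fun s hs => ((differentiableAt_id.mul
      (differentiableAt_gamFac K hs).1).mul (hE s)).differentiableWithinAt) hHo)
    (convex_halfSpace_re_gt 0).isPreconnected (z₀ := 2) (show (0 : ℝ) < (2 : ℂ).re by norm_num) ?_
  filter_upwards [(isOpen_lt continuous_const continuous_re).mem_nhds
    (show (1 : ℝ) < (2 : ℂ).re by norm_num)] with s hs
  rw [xiFun_half K hs, hEL s hs]
  ring

variable {M : Type u} [Field M] [NumberField M] [IsGalois ℚ M]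

theorem norm_hom_eq_one (ψ : (M ≃ₐ[ℚ] M) →* ℂˣ) (g : M ≃ₐ[ℚ] M) : ‖(ψ g : ℂ)‖ = 1 :=
  Complex.norm_eq_one_of_pow_eq_one (n := Fintype.card (M ≃ₐ[ℚ] M))
    (by rw [← Units.val_pow_eq_pow_val, ← map_pow, pow_card_eq_one, map_one, Units.val_one])
    Fintype.card_ne_zero

/-- **A simple real zero comes from a real linear character.** -/
theorem exists_quadratic_character {ρ : ℝ} (hρ0 : 0 < ρ) (hρ1 : ρ < 1)
    (hz : xiFun M (ρ : ℂ) = 0) (hd : deriv (xiFun M) (ρ : ℂ) ≠ 0) :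
    ∃ ψ : (M ≃ₐ[ℚ] M) →* ℂˣ, ψ ≠ 1 ∧ ψ * ψ = 1 ∧
      (∀ H : Subgroup (M ≃ₐ[ℚ] M), xiFun (IntermediateField.fixedField H) (ρ : ℂ) = 0 →
        ∀ h ∈ H, ψ h = 1) ∧
      ∃ E : ℂ → ℂ, Differentiable ℂ E ∧ E ρ = 0 ∧
        ∀ s : ℂ, 1 < s.re → E s = artinL (fun σ => (ψ σ : ℂ)) s := by
  set r : ℂ := (ρ : ℂ) with hr
  have hre : 0 < r.re := by simpa [hr] using hρ0
  have hr1 : r ≠ 1 := by rw [hr]; exact_mod_cast hρ1.ne
  have hsub : Differentiable ℂ fun s : ℂ => s - 1 := differentiable_id.sub_const 1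
  have hsub0 : ∀ s : ℂ, 1 < s.re → s - 1 ≠ 0 := fun s hs => sub_ne_zero.2 fun he => by simp [he] at hs
  have hsubord : ordInt (fun s : ℂ => s - 1) r = 0 :=
    ordInt_eq_zero (hsub.analyticAt r) (sub_ne_zero.2 hr1)
  have hex : ∀ χ ∈ irr (M ≃ₐ[ℚ] M), ∃ F : ℂ → ℂ, Meromorphic F ∧
      ∀ s : ℂ, 1 < s.re → F s = artinL χ s := fun χ hχ => by
    obtain ⟨W, -, rfl⟩ := exists_of_mem_irr hχ
    obtain ⟨F, hF, hFL, -⟩ := FA.ArtinRec.exists_meromorphic W.toRepresentation
    exact ⟨F, hF, hFL⟩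
  choose! F hF hFL using hex
  have hF0 : ∀ χ ∈ irr (M ≃ₐ[ℚ] M), ∀ s : ℂ, 1 < s.re → F χ s ≠ 0 := fun χ hχ s hs => by
    rw [hFL χ hχ s hs]; exact artinL_ne_zero χ s
  set n : ((M ≃ₐ[ℚ] M) → ℂ) → ℤ := fun χ => ordInt (F χ) r
  -- an entire function given by a product of the series
  have hord : ∀ (E : ℂ → ℂ), Differentiable ℂ E → ∀ (e : ℕ) (m : ((M ≃ₐ[ℚ] M) → ℂ) → ℕ),
      (∀ s : ℂ, 1 < s.re → E s = (s - 1) ^ e * ∏ χ ∈ irr (M ≃ₐ[ℚ] M), artinL χ s ^ (m χ : ℤ)) →
      ordInt E r = ∑ χ ∈ irr (M ≃ₐ[ℚ] M), (m χ : ℤ) * n χ := fun E hE e m h => by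
    have hP : Meromorphic fun z => ∏ χ ∈ irr (M ≃ₐ[ℚ] M), F χ z ^ (m χ : ℤ) :=
      fun z => MeromorphicAt.fun_prod fun χ hχ => (hF χ hχ z).fun_zpow _
    have hP0 : ∀ s : ℂ, 1 < s.re → ∏ χ ∈ irr (M ≃ₐ[ℚ] M), F χ s ^ (m χ : ℤ) ≠ 0 := fun s hs =>
      prod_ne_zero_iff.2 fun χ hχ => zpow_ne_zero _ (hF0 χ hχ s hs)
    have hS : Meromorphic fun z : ℂ => (z - 1) ^ (e : ℤ) :=
      fun z => (hsub.analyticAt z).meromorphicAt.fun_zpow _
    rw [ordInt_congr (eventuallyEq_of_halfPlane (fun z => (hE.analyticAt z).meromorphicAt)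
        (g := fun z => (z - 1) ^ (e : ℤ) * ∏ χ ∈ irr (M ≃ₐ[ℚ] M), F χ z ^ (m χ : ℤ))
        (fun z => (hS z).fun_mul (hP z))
        (fun s hs => by
          rw [h s hs, zpow_natCast]
          exact congrArg _ (prod_congr rfl fun χ hχ => by rw [hFL χ hχ s hs])) r),
      ordInt_mul hS hP (fun s hs => zpow_ne_zero _ (hsub0 s hs)) hP0,
      ordInt_zpow (fun z => (hsub.analyticAt z).meromorphicAt) hsub0, hsubord, mul_zero, zero_add,
      ordInt_prod_zpow _ F _ hF hF0]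
  -- the degree
  choose! d hd0 hdeg using fun χ (hχ : χ ∈ irr (M ≃ₐ[ℚ] M)) => irr_one hχ
  have h1 : ∑ χ ∈ irr (M ≃ₐ[ℚ] M), (n χ : ℂ) * χ 1 = 1 := by
    obtain ⟨E, hE, hEL, -⟩ := exists_zeta_cleared M
    have hE1 : ordInt E r = ∑ χ ∈ irr (M ≃ₐ[ℚ] M), (d χ : ℤ) * n χ := hord E hE 1 d fun s hs => by
      rw [hEL s hs, pow_one, dedekindZeta_eq_prod (K := ℚ) hs]
      congr 1
      exact prod_congr rfl fun χ hχ => by rw [hdeg χ hχ, cpow_natCast, zpow_natCast]
    have hxi := ordInt_eq_one (differentiable_xiFun M) hz hd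
    have hH : DifferentiableOn ℂ (fun s => s * FA.HeckeFE.gamFac M s) {s : ℂ | 0 < s.re} :=
      fun s hs => (differentiableAt_id.mul (differentiableAt_gamFac M hs).1).differentiableWithinAt
    have hHo : IsOpen {s : ℂ | 0 < s.re} := isOpen_lt continuous_const continuous_re
    have hh := hH.analyticAt (hHo.mem_nhds hre)
    have hh0 : r * FA.HeckeFE.gamFac M r ≠ 0 := mul_ne_zero
      (fun h0 => by rw [h0] at hre; simp at hre) (differentiableAt_gamFac M hre).2
    have hev : xiFun M =ᶠ[𝓝[≠] r] fun s => s * FA.HeckeFE.gamFac M s * E s :=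
      ((hHo.eventually_mem hre).mono fun s hs => xiFun_eq_mul M hE hEL hs).filter_mono
        nhdsWithin_le_nhds
    rw [ordInt_congr hev, ordInt,
      fun_meromorphicOrderAt_mul hh.meromorphicAt (hE.analyticAt r).meromorphicAt,
      show meromorphicOrderAt (fun s => s * FA.HeckeFE.gamFac M s) r = ((0 : ℤ) : WithTop ℤ) from
        (meromorphicOrderAt_eq_int_iff hh.meromorphicAt).2
          ⟨_, hh, hh0, Eventually.of_forall fun z => by simp⟩, WithTop.coe_zero, zero_add] at hxi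
    rw [show (meromorphicOrderAt E r).untop₀ = ordInt E r from rfl, hE1] at hxi
    rw [sum_congr rfl fun χ hχ => by rw [hdeg χ hχ]]
    have h := congrArg (Int.cast : ℤ → ℂ) hxi
    push_cast at h
    rw [← h]
    exact sum_congr rfl fun χ _ => mul_comm _ _
  -- induced linear characters
  have h2 : ∀ (C : Subgroup (M ≃ₐ[ℚ] M)) (ψ : C →* ℂˣ), (∀ a b : C, a * b = b * a) →
      ∃ a : ℕ, ∑ χ ∈ irr (M ≃ₐ[ℚ] M), (n χ : ℂ) * pairing (induced C fun y => (ψ y : ℂ)) χ = a :=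
      fun C ψ _ => by
    choose! m hm using fun χ (hχ : χ ∈ irr (M ≃ₐ[ℚ] M)) => exists_nat_pairing_induced C ψ hχ
    have hdec : (induced C fun y => (ψ y : ℂ)) = ∑ χ ∈ irr (M ≃ₐ[ℚ] M), (m χ : ℤ) • χ :=
      funext fun x => by
        rw [expansion (induced_conj C _) x, Finset.sum_apply]
        exact sum_congr rfl fun χ hχ => by rw [hm χ hχ]; simp
    obtain ⟨E, hE, hEL, -⟩ := exists_linear_cleared (ψ.comp (fixedEquiv C).toMonoidHom)
    have hEo := hord E hE _ m fun s hs => by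
      rw [hEL s hs]
      congr 1
      rw [← prod_congr rfl fun χ _ => artinL_zsmul (m χ : ℤ) χ (s := s), ← artinL_sum hs, ← hdec,
        ← inducedFn_fixedField C fun y => (ψ y : ℂ), artinL_induced hs fun g x => ?_]
      · rfl
      · simp [map_mul, map_inv]
    refine ⟨(∑ χ ∈ irr (M ≃ₐ[ℚ] M), (m χ : ℤ) * n χ).toNat, ?_⟩
    have hnn : 0 ≤ ∑ χ ∈ irr (M ≃ₐ[ℚ] M), (m χ : ℤ) * n χ := hEo ▸ ordInt_nonneg (hE.analyticAt r)
    have h := congrArg (Int.cast : ℤ → ℂ) (Int.toNat_of_nonneg hnn)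
    push_cast at h
    rw [h]
    exact sum_congr rfl fun χ hχ => by rw [hm χ hχ, mul_comm]
  obtain ⟨χ₀, hχ₀, hn1, hdeg1, hn0⟩ := exists_single n h1 h2
  obtain ⟨ψ, rfl⟩ := exists_hom_of_one hχ₀ hdeg1
  have hψ1 : ψ ≠ 1 := by
    rintro rfl
    have h := ordInt_congr (x := r) (eventuallyEq_of_halfPlane
      (fun z => (hsub.analyticAt z).meromorphicAt.fun_mul (hF _ hχ₀ z))
      (fun z => (differentiable_riemannZeta₁.analyticAt z).meromorphicAt) (fun s hs => by
        rw [hFL _ hχ₀ s hs]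
        simp only [MonoidHom.one_apply, Units.val_one]
        rw [artinL_one hs, dedekindZeta_rat hs,
          riemannZeta_eq_inv_sub_mul (sub_ne_zero.1 (hsub0 s hs)), mul_inv_cancel_left₀ (hsub0 s hs)]) r)
    rw [ordInt_mul (fun z => (hsub.analyticAt z).meromorphicAt) (hF _ hχ₀) hsub0 (hF0 _ hχ₀), hsubord,
      zero_add, ordInt_eq_zero (differentiable_riemannZeta₁.analyticAt r)
        (FA.PsiOscillation.riemannZeta₁_real_ne_zero hρ0)] at h
    exact one_ne_zero (hn1.symm.trans h)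
  obtain ⟨E, hE, hEL, -⟩ := exists_linear_cleared ψ
  simp only [if_neg hψ1, pow_zero, one_mul] at hEL
  have hEF : ∀ (φ : (M ≃ₐ[ℚ] M) →* ℂˣ) (hφ : (fun x => (φ x : ℂ)) ∈ irr (M ≃ₐ[ℚ] M)) (E' : ℂ → ℂ),
      Differentiable ℂ E' → (∀ s : ℂ, 1 < s.re → E' s = artinL (fun x => (φ x : ℂ)) s) →
      ordInt E' r = n fun x => (φ x : ℂ) := fun φ hφ E' hE' hE'L =>
    ordInt_congr (eventuallyEq_of_halfPlane (fun z => (hE'.analyticAt z).meromorphicAt) (hF _ hφ)
      (fun s hs => by rw [hE'L s hs, hFL _ hφ s hs]) r)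
  have hEr : E r = 0 := eq_zero_of_ordInt_pos (hE.analyticAt r) (by
    rw [hEF ψ hχ₀ E hE hEL, hn1]; exact one_pos)
  -- a subfield with the zero is fixed by a subgroup of the kernel
  have hsubfield : ∀ H : Subgroup (M ≃ₐ[ℚ] M), xiFun (IntermediateField.fixedField H) r = 0 →
      ∀ h ∈ H, ψ h = 1 := fun H hH => by
    choose! m hm using fun χ (hχ : χ ∈ irr (M ≃ₐ[ℚ] M)) =>
      exists_nat_pairing_induced H (1 : H →* ℂˣ) hχ
    obtain ⟨Z, hZ, hZL, -⟩ := exists_zeta_cleared (IntermediateField.fixedField H)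
    have hdec : (induced H fun _ => (1 : ℂ)) = ∑ χ ∈ irr (M ≃ₐ[ℚ] M), (m χ : ℤ) • χ := funext fun x => by
      rw [expansion (induced_conj H _) x, Finset.sum_apply]
      exact sum_congr rfl fun χ hχ => by
        have h := hm χ hχ
        simp only [MonoidHom.one_apply, Units.val_one] at h
        rw [h]
        simp
    have hZo := hord Z hZ 1 m fun s hs => by
      rw [hZL s hs, pow_one]
      congr 1
      rw [← prod_congr rfl fun χ _ => artinL_zsmul (m χ : ℤ) χ (s := s), ← artinL_sum hs, ← hdec,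
        ← inducedFn_fixedField H fun _ => (1 : ℂ), artinL_induced hs fun _ _ => rfl, artinL_one hs]
    rw [sum_eq_single (fun x => (ψ x : ℂ)) (fun χ hχ hc => by rw [hn0 χ hχ hc, mul_zero])
      (fun h => absurd hχ₀ h), hn1, mul_one] at hZo
    have hz0 : Z r = 0 := by
      rw [xiFun_eq_mul _ hZ hZL hre] at hH
      exact (mul_eq_zero.1 hH).resolve_left
        (mul_ne_zero (fun h0 => by rw [h0] at hre; simp at hre) (differentiableAt_gamFac _ hre).2)
    have hm0 : ordInt Z r ≠ 0 := ordInt_ne_zero (hZ.analyticAt r) hz0 (order_ne_top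
      (fun z => (hZ.analyticAt z).meromorphicAt) (fun s hs => by
        rw [hZL s hs, ← artinL_one (L := M) hs]
        exact mul_ne_zero (hsub0 s hs) (artinL_ne_zero _ _)) r)
    have hpair := hm _ hχ₀
    rw [pairing_induced H _ fun g x => by
      rw [map_mul, map_mul, map_inv, mul_inv_cancel_comm]] at hpair
    intro h hh
    by_contra hne
    have hne' : ((Units.coeHom ℂ).comp (ψ.comp H.subtype)) ≠ 1 := fun he => hne (Units.ext (by
      simpa using DFunLike.congr_fun he ⟨h, hh⟩))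
    have hsum := sum_hom_units_eq_zero ((Units.coeHom ℂ).comp (ψ.comp H.subtype)) hne'
    rw [pairing] at hpair
    simp only [MonoidHom.one_apply, Units.val_one, one_mul] at hpair
    rw [Fintype.sum_equiv (Equiv.inv H) (fun y : H => ((ψ ((y⁻¹ : H) : M ≃ₐ[ℚ] M) : ℂˣ) : ℂ))
      (fun y : H => ((ψ (y : M ≃ₐ[ℚ] M) : ℂˣ) : ℂ)) fun y => rfl] at hpair
    simp only [MonoidHom.coe_comp, Function.comp_apply, Units.coeHom_apply, Subgroup.coe_subtype] at hsum
    rw [hsum, mul_zero] at hpair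
    exact hm0 (by rw [hZo]; exact_mod_cast hpair.symm)
  refine ⟨ψ, hψ1, ?_, hsubfield, E, hE, hEr, hEL⟩
  -- the conjugate character vanishes there too
  have hcj : ∀ g, conj (ψ g : ℂ) = ((ψ⁻¹ : (M ≃ₐ[ℚ] M) →* ℂˣ) g : ℂ) := fun g => by
    rw [MonoidHom.inv_apply, Units.val_inv_eq_inv_val, Complex.inv_eq_conj (norm_hom_eq_one ψ g)]
  have hmem : (fun x => ((ψ⁻¹ : (M ≃ₐ[ℚ] M) →* ℂˣ) x : ℂ)) ∈ irr (M ≃ₐ[ℚ] M) := by
    rw [← linRep_character]
    refine mem_irr_of_norm _ ?_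
    rw [linRep_character, pairing]
    simp [map_inv, Nat.card_eq_fintype_card]
  set E' : ℂ → ℂ := fun z => conj (E (conj z)) with hE'def
  have hE' : Differentiable ℂ E' := fun z => by
    have h := (hE (conj z)).conj_conj
    rwa [conj_conj] at h
  have hE'L : ∀ s : ℂ, 1 < s.re →
      E' s = artinL (fun x => ((ψ⁻¹ : (M ≃ₐ[ℚ] M) →* ℂˣ) x : ℂ)) s := fun s hs => by
    rw [hE'def]
    simp only
    rw [hEL (conj s) (by simpa using hs), ← artinL_conj, conj_conj]
    simp only [hcj]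
  have hE'0 : E' r = 0 := by rw [hE'def]; simp only [hr, conj_ofReal]; rw [← hr, hEr, map_zero]
  have hne : n (fun x => ((ψ⁻¹ : (M ≃ₐ[ℚ] M) →* ℂˣ) x : ℂ)) ≠ 0 := by
    rw [← hEF _ hmem E' hE' hE'L]
    exact ordInt_ne_zero (hE'.analyticAt r) hE'0 (order_ne_top
      (fun z => (hE'.analyticAt z).meromorphicAt)
      (fun s hs => by rw [hE'L s hs]; exact artinL_ne_zero _ _) r)
  have heq : (fun x => ((ψ⁻¹ : (M ≃ₐ[ℚ] M) →* ℂˣ) x : ℂ)) = fun x => (ψ x : ℂ) :=
    Classical.not_not.1 fun hc => hne (hn0 _ hmem hc)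
  refine MonoidHom.ext fun g => ?_
  have h := Units.ext (congrFun heq g)
  rw [MonoidHom.inv_apply, inv_eq_iff_mul_eq_one] at h
  rwa [MonoidHom.mul_apply, MonoidHom.one_apply]

/-- **Heilbronn**: the zero comes from a quadratic subfield. -/
theorem exists_quadratic_subfield {ρ : ℝ} (hρ0 : 0 < ρ) (hρ1 : ρ < 1)
    (hz : xiFun M (ρ : ℂ) = 0) (hd : deriv (xiFun M) (ρ : ℂ) ≠ 0) :
    ∃ F : IntermediateField ℚ M, finrank ℚ F = 2 ∧ xiFun F (ρ : ℂ) = 0 ∧
      ∀ K' : IntermediateField ℚ M, xiFun K' (ρ : ℂ) = 0 → F ≤ K' := by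
  obtain ⟨ψ, hψ1, hψ2, hsubfield, E, hE, hEr, hEL⟩ := exists_quadratic_character hρ0 hρ1 hz hd
  have hsq : ∀ g, (ψ g : ℂ) = 1 ∨ (ψ g : ℂ) = -1 := fun g => by
    have h := congrArg (fun φ : (M ≃ₐ[ℚ] M) →* ℂˣ => (φ g : ℂ)) hψ2
    simp only [MonoidHom.mul_apply, MonoidHom.one_apply, Units.val_mul, Units.val_one] at h
    exact mul_self_eq_one_iff.1 h
  set H := ψ.ker with hH
  have hker : ∀ g, g ∈ H ↔ (ψ g : ℂ) = 1 := fun g => by
    rw [hH, MonoidHom.mem_ker, Units.val_eq_one]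
  obtain ⟨a, ha⟩ : ∃ a, (ψ a : ℂ) = -1 := by
    by_contra! hc
    exact hψ1 (MonoidHom.ext fun g => Units.ext ((hsq g).resolve_right (hc g)))
  have hidx : H.index = 2 := by
    refine Subgroup.index_eq_two_iff.2 ⟨a, fun b => ?_⟩
    rw [hker, hker, map_mul, Units.val_mul, ha]
    rcases hsq b with h | h <;> rw [h] <;> norm_num [Xor]
  set F := IntermediateField.fixedField H
  have hGN : Nat.card H * 2 = Nat.card (M ≃ₐ[ℚ] M) := hidx ▸ H.card_mul_index
  refine ⟨F, ?_, ?_, fun K' hK' => ?_⟩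
  · have h1 : finrank ℚ F * finrank F M = finrank ℚ M := finrank_mul_finrank ℚ F M
    rw [IntermediateField.finrank_fixedField_eq_card, ← IsGalois.card_aut_eq_finrank ℚ M, ← hGN,
      mul_comm (Nat.card H)] at h1
    exact Nat.eq_of_mul_eq_mul_right Nat.card_pos h1
  have hind : (induced H fun _ => (1 : ℂ)) = (fun _ => (1 : ℂ)) + fun x => (ψ x : ℂ) := by
    funext x
    have hterm : ∀ g : M ≃ₐ[ℚ] M, zext H (fun _ => (1 : ℂ)) (g * x * g⁻¹) =
        if (ψ x : ℂ) = 1 then 1 else 0 := fun g => by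
      have hcj : ψ (g * x * g⁻¹) = ψ x := by rw [map_mul, map_mul, map_inv, mul_inv_cancel_comm]
      simp only [zext, hker, hcj, dite_eq_ite]
    have hcard : (Nat.card H : ℂ)⁻¹ * Nat.card (M ≃ₐ[ℚ] M) = 2 := by
      rw [← hGN, Nat.cast_mul, inv_mul_cancel_left₀ (Nat.cast_ne_zero.2 Nat.card_pos.ne')]
      norm_num
    rw [induced_eq, sum_congr rfl fun g _ => hterm g, sum_const, card_univ, nsmul_eq_mul,
      ← Nat.card_eq_fintype_card, ← mul_assoc, hcard, Pi.add_apply]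
    rcases hsq x with h | h <;> rw [h] <;> norm_num
  obtain ⟨Z, hZ, hZL, -⟩ := exists_zeta_cleared F
  have hZeq : Z = fun s => riemannZeta₁ s * E s :=
    eq_of_eqOn_halfPlane hZ (differentiable_riemannZeta₁.mul hE) fun s hs => by
      have hs1 : s ≠ 1 := fun h => by simp [h] at hs
      have h1 : dedekindZeta F s =
          artinL (induced H fun _ => (1 : ℂ) : (M ≃ₐ[ℚ] M) → ℂ) s := by
        rw [← inducedFn_fixedField H fun _ => (1 : ℂ), artinL_induced hs fun _ _ => rfl, artinL_one hs]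
      rw [hZL s hs, h1, hind, artinL_add hs, artinL_one hs, dedekindZeta_rat hs, ← hEL s hs,
        riemannZeta_eq_inv_sub_mul hs1, mul_assoc, mul_inv_cancel_left₀ (sub_ne_zero.2 hs1)]
  · rw [xiFun_eq_mul F hZ hZL (show (0 : ℝ) < (ρ : ℂ).re by simpa using hρ0)]
    simp [hZeq, hEr]
  rw [← IsGalois.fixedField_fixingSubgroup K'] at hK' ⊢
  exact IntermediateField.fixedField_antitone fun g hg => MonoidHom.mem_ker.2 (hsubfield _ hK' g hg)

end FA.StarkZero
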