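import Fermat.Agent.StarkZero.Real
import Fermat.Agent.StarkZero.Heilbronn
import Fermat.Agent.BrauerSiegelDegree.NormalClosure
import Fermat.Agent.HeckeBS.Quotient

/-!
# Stark's theorem on the exceptional zero

Near `1` the zeta function has at most one zero, a simple one; it is inherited from the Galois
closure, hence from a quadratic subfield of it. Without such a subfield
`h R ≥ c √|d| / (1 + log |d|)`, with an explicit `c` depending on the degree only.
-/

set_option autoImplicit false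
set_option linter.style.haveILetI false

noncomputable section

open NumberField Module Complex Filter Topology Set
open FA.HeckeBS
open scoped Real Classical

namespace FA.StarkZero

universe u v

variable (K : Type u) [Field K] [NumberField K]

theorem differentiable_dslope_entire {f : ℂ → ℂ} (hf : Differentiable ℂ f) (a : ℂ) :
    Differentiable ℂ (dslope f a) :=
  differentiableOn_univ.1 ((differentiableOn_dslope univ_mem).2 hf.differentiableOn)

/-- **At most one zero.** -/
theorem zero_unique {β₁ β₂ : ℝ} (h₁ : β₁ ∈ Icc (1 - starkC (finrank ℚ K) / size K) 1)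
    (h₂ : β₂ ∈ Icc (1 - starkC (finrank ℚ K) / size K) 1)
    (z₁ : xiFun K (β₁ : ℂ) = 0) (z₂ : xiFun K (β₂ : ℂ) = 0) : β₁ = β₂ := by
  by_contra hne
  set g₁ := dslope (xiFun K) (β₁ : ℂ) with hg₁
  have e₁ : ∀ s : ℂ, xiFun K s = (s - β₁) * g₁ s := fun s => by
    rw [hg₁, ← smul_eq_mul, sub_smul_dslope, z₁, sub_zero]
  have hz : g₁ β₂ = 0 := by
    have h := (e₁ β₂).symm.trans z₂
    refine (mul_eq_zero.1 h).resolve_left (sub_ne_zero.2 ?_)
    exact_mod_cast Ne.symm hne
  refine two_factor_false K (differentiable_dslope_entire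
    (differentiable_dslope_entire (differentiable_xiFun K) (β₁ : ℂ)) (β₂ : ℂ)) h₁ h₂ fun s => ?_
  rw [mul_assoc, ← smul_eq_mul (s - (β₂ : ℂ)), sub_smul_dslope, ← hg₁, hz, sub_zero]
  exact e₁ s

/-- **The zero is simple.** -/
theorem zero_simple {β : ℝ} (h₁ : β ∈ Icc (1 - starkC (finrank ℚ K) / size K) 1)
    (z₁ : xiFun K (β : ℂ) = 0) : deriv (xiFun K) (β : ℂ) ≠ 0 := by
  intro hd
  set g₁ := dslope (xiFun K) (β : ℂ) with hg₁
  refine two_factor_false K (differentiable_dslope_entire
    (differentiable_dslope_entire (differentiable_xiFun K) (β : ℂ)) (β : ℂ)) h₁ h₁ fun s => ?_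
  rw [mul_assoc, ← smul_eq_mul (s - (β : ℂ)) (dslope _ _ s), sub_smul_dslope, dslope_same, hd, sub_zero,
    ← smul_eq_mul, sub_smul_dslope, z₁, sub_zero]

/-- The width of the zone for all fields of degree `n`, times `1 + log |d|`. -/
def zoneC (n : ℕ) : ℝ :=
  (Finset.range (n.factorial + 1)).inf' ⟨0, Finset.mem_range.2 (Nat.succ_pos _)⟩ starkC /
    (n.factorial * (1 + Real.log n.factorial))

theorem zoneC_pos (n : ℕ) : 0 < zoneC n := by
  have h1 : (1 : ℝ) ≤ n.factorial := Nat.one_le_cast.2 (Nat.factorial_pos n)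
  have h2 := Real.log_nonneg h1
  exact div_pos ((Finset.lt_inf'_iff _).2 fun m _ => starkC_pos m) (by positivity)

theorem zoneC_div_le (n : ℕ) {L : ℝ} (hL : 1 ≤ L) : zoneC n / L ≤ 1 / 300 := by
  have h1 : (1 : ℝ) ≤ n.factorial := Nat.one_le_cast.2 (Nat.factorial_pos n)
  refine (div_le_self (zoneC_pos n).le hL).trans ((div_le_self ?_ ?_).trans ?_)
  · exact ((Finset.lt_inf'_iff _).2 fun m _ => starkC_pos m).le
  · exact one_le_mul_of_one_le_of_one_le h1 (le_add_of_nonneg_right (Real.log_nonneg h1))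
  · refine (Finset.inf'_le _ (Finset.mem_range.2 (Nat.succ_pos _))).trans ?_
    simpa using starkC_div_le (le_refl (1 : ℝ)) 0

theorem ne_of_mem_zone {β : ℝ} {n : ℕ} (h : β ∈ Icc (1 - zoneC n / size K) 1)
    (hz : xiFun K (β : ℂ) = 0) : 0 < β ∧ β < 1 := by
  refine ⟨by linarith [h.1, zoneC_div_le n (one_le_size (K := K))], lt_of_le_of_ne h.2 fun h1 => ?_⟩
  rw [h1, ofReal_one, xiFun_one] at hz
  exact (polarR_pos K).ne' (ofReal_eq_zero.1 hz)

/-- The zone of degree `n` lies in the zone of the Galois closure. -/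
theorem mem_zone_closure (M : Type) [Field M] [NumberField M]
    (hdeg : finrank ℚ M ≤ (finrank ℚ K).factorial)
    (hd : (discr M).natAbs ≤ ((finrank ℚ K).factorial * (discr K).natAbs) ^ (finrank ℚ K).factorial)
    {β : ℝ} (h : β ∈ Icc (1 - zoneC (finrank ℚ K) / size K) 1) :
    β ∈ Icc (1 - starkC (finrank ℚ M) / size M) 1 := by
  set n := finrank ℚ K
  refine ⟨le_trans (sub_le_sub_left ?_ 1) h.1, h.2⟩
  set a := (Finset.range (n.factorial + 1)).inf' ⟨0, Finset.mem_range.2 (Nat.succ_pos _)⟩ starkC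
  have ha : a ≤ starkC (finrank ℚ M) := Finset.inf'_le _ (Finset.mem_range.2 (by omega))
  have hN : (1 : ℝ) ≤ n.factorial := Nat.one_le_cast.2 (Nat.factorial_pos n)
  have hK : (1 : ℝ) ≤ ((discr K).natAbs : ℕ) := Nat.one_le_cast.2 (Int.natAbs_pos.2 (discr_ne_zero K))
  have hLM : size M ≤ n.factorial * (1 + Real.log n.factorial) * size K := by
    have h1 := Real.log_le_log (Nat.cast_pos.2 (Int.natAbs_pos.2 (discr_ne_zero M)))
      (Nat.cast_le (α := ℝ).2 hd)
    push_cast at h1
    rw [Real.log_pow, Real.log_mul (by positivity) (by positivity)] at h1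
    have hl := Real.log_nonneg hN
    have hD := Real.log_nonneg hK
    simp only [size]
    nlinarith [mul_nonneg (mul_nonneg (zero_le_one.trans hN) hl) hD]
  rw [zoneC, div_div]
  exact div_le_div₀ (starkC_pos _).le ha (zero_lt_one.trans_le one_le_size) hLM

/-- Near `1` the power of the discriminant is at least half the square root. -/
theorem half_sqrt_le_rpow {n : ℕ} {x : ℝ} (hx : 1 - zoneC n / size K ≤ x) :
    1 / 2 * Real.sqrt |((discr K : ℤ) : ℝ)| ≤ |((discr K : ℤ) : ℝ)| ^ (x / 2) := by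
  set d := |((discr K : ℤ) : ℝ)| with hd
  have hcast : d = (((discr K).natAbs : ℕ) : ℝ) := by
    rw [hd, ← Int.cast_abs, ← Int.natCast_natAbs, Int.cast_natCast]
  have hd1 : 1 ≤ d := hcast ▸ Nat.one_le_cast.2 (Int.natAbs_pos.2 (discr_ne_zero K))
  have hd0 : 0 < d := zero_lt_one.trans_le hd1
  have hη0 : 0 ≤ zoneC n / size K := (div_pos (zoneC_pos n) (zero_lt_one.trans_le one_le_size)).le
  refine le_trans ?_ (Real.rpow_le_rpow_of_exponent_le hd1
    (show (1 / 2 : ℝ) + -(zoneC n / size K / 2) ≤ x / 2 by linarith))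
  rw [Real.sqrt_eq_rpow, Real.rpow_add hd0, mul_comm]
  refine mul_le_mul_of_nonneg_left ?_ (Real.rpow_nonneg hd0.le _)
  have hsz : zoneC n / size K * Real.log d ≤ 1 / 300 := by
    have h1 : Real.log d ≤ size K := by rw [size, hcast]; linarith
    have h2 := (zoneC_div_le n (le_refl (1 : ℝ)))
    rw [div_one] at h2
    refine (mul_le_mul_of_nonneg_left h1 hη0).trans ?_
    rwa [div_mul_cancel₀ _ (zero_lt_one.trans_le one_le_size).ne']
  rw [Real.rpow_def_of_pos hd0]
  refine le_trans (by norm_num) ((Real.add_one_le_exp (-(1 / 300))).trans (Real.exp_le_exp.2 ?_))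
  nlinarith [mul_nonneg hη0 (Real.log_nonneg hd1)]

variable (N : Type v) [Field N] [NumberField N] [IsGalois ℚ N] [Algebra K N]

/-- **Stark**: an exceptional zero comes from a quadratic subfield of any Galois field containing `K`. -/
theorem exists_quadratic_of_zero {β : ℝ}
    (h : β ∈ Icc (1 - zoneC (finrank ℚ K) / size K) 1) (hz : xiFun K (β : ℂ) = 0) :
    ∃ F : IntermediateField ℚ N, finrank ℚ F = 2 ∧ xiFun F (β : ℂ) = 0 := by
  obtain ⟨hβ0, hβ1⟩ := ne_of_mem_zone K h hz
  obtain ⟨M, _, _, _, _, _, hdeg, hd, hemb⟩ := FA.BSDegree.exists_galois_closure_embedding.{u, v} K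
  obtain ⟨e⟩ := hemb N
  have hmem := mem_zone_closure K M hdeg hd h
  have hzM := xiFun_eq_zero_of_galois K M hz
  obtain ⟨F, hF2, hFz, -⟩ := exists_quadratic_subfield hβ0 hβ1 hzM (zero_simple M hmem hzM)
  refine ⟨F.map e, ?_, ?_⟩
  · rw [← (F.equivMap e).toLinearEquiv.finrank_eq, hF2]
  obtain ⟨E, hE, hEL, -⟩ := FA.ZetaDivisibility.exists_zeta_cleared F
  obtain ⟨E', hE', hEL', -⟩ := FA.ZetaDivisibility.exists_zeta_cleared (F.map e)
  have heq : E' = E := FA.ZetaDivisibility.eq_of_eqOn_halfPlane hE' hE fun s hs => by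
    rw [hEL s hs, hEL' s hs, FA.AbelianZeta.dedekindZeta_congr (F.equivMap e).toRingEquiv]
  have hre : 0 < ((β : ℂ)).re := by simpa using hβ0
  rw [xiFun_eq_mul F hE hEL hre] at hFz
  have h0 : E (β : ℂ) = 0 := (mul_eq_zero.1 hFz).resolve_left
    (mul_ne_zero (fun h0 => by rw [h0] at hre; simp at hre) (differentiableAt_gamFac F hre).2)
  rw [xiFun_eq_mul (F.map e) hE' hEL' hre]
  simp [heq, h0]

/-- **Stark**: no exceptional zero without quadratic subfields. -/
theorem xiFun_ne_zero_of_no_quadratic (hN : ∀ F : IntermediateField ℚ N, finrank ℚ F ≠ 2) {β : ℝ}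
    (h : β ∈ Icc (1 - zoneC (finrank ℚ K) / size K) 1) : xiFun K (β : ℂ) ≠ 0 := fun hz =>
  let ⟨F, hF, _⟩ := exists_quadratic_of_zero K N h hz
  hN F hF

/-- The constant of the lower bound. -/
def hRConst (n : ℕ) : ℝ :=
  1 / 4 * (Real.exp (-(π * Real.exp 1 * n)) / 2 ^ n) * zoneC n

theorem hRConst_pos (n : ℕ) : 0 < hRConst n := by
  have := zoneC_pos n
  unfold hRConst; positivity

/-- **Stark's lower bound.** -/
theorem hR_ge_of_no_quadratic (hN : ∀ F : IntermediateField ℚ N, finrank ℚ F ≠ 2) :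
    hRConst (finrank ℚ K) * (Real.sqrt |((discr K : ℤ) : ℝ)| / size K) ≤ hR K := by
  set n := finrank ℚ K
  set η := zoneC n / size K with hη
  have hL := one_le_size (K := K)
  have hη0 : 0 < η := div_pos (zoneC_pos n) (zero_lt_one.trans_le hL)
  have hη3 : η ≤ 1 / 300 := zoneC_div_le n hL
  have h := hR_lower_of_no_zero K (x := 1 - η) (by linarith) (by linarith)
    fun y hy => xiFun_ne_zero_of_no_quadratic K N hN hy
  refine le_trans ?_ h
  have hpow := half_sqrt_le_rpow K (n := n) (x := 1 - η) le_rfl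
  set d := |((discr K : ℤ) : ℝ)|
  calc hRConst n * (Real.sqrt d / size K)
      = 1 / 2 * η * (Real.exp (-(π * Real.exp 1 * n)) / 2 ^ n) * (1 / 2 * Real.sqrt d) := by
        rw [hRConst, hη]; ring
    _ ≤ (1 - η) * (1 - (1 - η)) * (Real.exp (-(π * Real.exp 1 * n)) / 2 ^ n) * d ^ ((1 - η) / 2) :=
        mul_le_mul (mul_le_mul_of_nonneg_right (by nlinarith) (by positivity)) hpow (by positivity)
          (mul_nonneg (mul_nonneg (by linarith) (by linarith)) (by positivity))

omit [IsGalois ℚ N] [Algebra K N] in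
/-- A Galois field of odd degree. -/
theorem no_quadratic_of_odd (h : Odd (finrank ℚ N)) (F : IntermediateField ℚ N) : finrank ℚ F ≠ 2 := by
  intro h2
  have hd : 2 ∣ finrank ℚ N := ⟨finrank F N, by rw [← h2]; exact (finrank_mul_finrank ℚ F N).symm⟩
  exact h.not_two_dvd_nat hd

end FA.StarkZero
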